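import Fermat.Agent.Resonance.Optimise

/-!
# Soundararajan's theorem on large values of `ζ (1/2 + it)`

The resonator of length `⌊T ^ (1 - ε)⌋` gives `exp (c √(log T / log log T))`, every `c < 1`.
-/

set_option autoImplicit false

noncomputable section

namespace FA.Resonance

open Finset Filter Real
open scoped Topology

theorem tendsto_log_div_loglog :
    Tendsto (fun T : ℝ => √(Real.log T / Real.log (Real.log T))) atTop atTop := by
  refine Real.tendsto_sqrt_atTop.comp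
    ((?_ : Tendsto (fun l : ℝ => l / Real.log l) atTop atTop).comp Real.tendsto_log_atTop)
  refine tendsto_atTop.2 fun B => ?_
  filter_upwards [Real.isLittleO_log_id_atTop.bound (show 0 < 1 / (|B| + 1) by positivity),
    Real.tendsto_log_atTop.eventually_gt_atTop 0, eventually_ge_atTop (1 : ℝ)] with l hl h0 h1
  rw [id_eq, Real.norm_of_nonneg h0.le, Real.norm_of_nonneg (show 0 ≤ l by linarith),
    div_mul_eq_mul_div, one_mul, le_div_iff₀ (by positivity)] at hl
  rw [le_div_iff₀ h0]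
  nlinarith [le_abs_self B]

theorem exists_large_zeta {c : ℝ} (hc : c < 1) :
    ∀ᶠ T : ℝ in atTop, ∃ t ∈ Set.Icc T (2 * T),
      Real.exp (c * √(Real.log T / Real.log (Real.log T))) ≤
        ‖riemannZeta (1 / 2 + t * Complex.I)‖ := by
  obtain ⟨c₀, hc₀, hc00, hc01⟩ : ∃ c₀, c < c₀ ∧ 0 < c₀ ∧ c₀ < 1 :=
    ⟨(max c 0 + 1) / 2, by linarith [le_max_left c 0], by linarith [le_max_right c 0],
      by linarith [max_lt hc one_pos]⟩
  obtain ⟨c₁, hc₁, hc11⟩ := exists_between hc01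
  obtain ⟨κ, hκ, hκ1⟩ : ∃ κ : ℝ, 0 < κ ∧ c₀ ≤ c₁ * √(1 - 2 * κ) := by
    refine ⟨(1 - (c₀ / c₁) ^ 2) / 2, ?_, ?_⟩
    · have : c₀ / c₁ < 1 := (div_lt_one (hc00.trans hc₁)).2 hc₁
      have := pow_lt_one₀ (div_nonneg hc00.le (hc00.trans hc₁).le) this two_ne_zero
      linarith
    · rw [show 1 - 2 * ((1 - (c₀ / c₁) ^ 2) / 2) = (c₀ / c₁) ^ 2 by ring,
        Real.sqrt_sq (div_nonneg hc00.le (hc00.trans hc₁).le),
        mul_div_cancel₀ _ (hc00.trans hc₁).ne']
  have hκ2 : κ < 1 := by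
    by_contra h
    rw [Real.sqrt_eq_zero'.2 (by linarith), mul_zero] at hκ1
    linarith
  have hN : Tendsto (fun T : ℝ => ⌊T ^ (1 - κ)⌋₊) atTop atTop :=
    tendsto_nat_floor_atTop.comp (tendsto_rpow_atTop (by linarith))
  filter_upwards [eventually_exists_large hκ, hN.eventually (eventually_exists_resonator hc11),
    hN.eventually (eventually_ge_atTop 3),
    Real.tendsto_log_atTop.eventually_ge_atTop (Real.log 2 / κ),
    tendsto_log_div_loglog.eventually_ge_atTop ((Real.log 8) / (c₀ - c)),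
    tendsto_log_div_loglog.eventually_ge_atTop ((Real.log 4000) / c₀),
    eventually_ge_atTop (3 : ℝ)] with T hT hres hN3 hlog hX hX' hT3
  obtain ⟨r, hr0, hr⟩ := hres
  obtain ⟨N, hNd⟩ : ∃ N, N = ⌊T ^ (1 - κ)⌋₊ := ⟨_, rfl⟩
  rw [← hNd] at hr0 hr hN3
  have hT0 : 0 < T := by linarith
  have hTp : 0 < T ^ (1 - κ) := Real.rpow_pos_of_pos hT0 _
  have hfl : (N : ℝ) ≤ T ^ (1 - κ) := hNd ▸ Nat.floor_le hTp.le
  obtain ⟨t, ht, hle⟩ := hT r N hfl
  refine ⟨t, ht, ?_⟩
  -- compare the heights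
  have hN0 : (0 : ℝ) < N := Nat.cast_pos.2 (by omega)
  have hl1 : 1 < Real.log N := by
    refine (Real.lt_log_iff_exp_lt hN0).2 (lt_of_lt_of_le Real.exp_one_lt_three ?_)
    exact_mod_cast hN3
  have hNlo : (1 - 2 * κ) * Real.log T ≤ Real.log N := by
    have h2 : T ^ (1 - κ) ≤ 2 * N := by
      have h3 := Nat.lt_floor_add_one (T ^ (1 - κ))
      rw [← hNd] at h3
      have : (1 : ℝ) ≤ N := by exact_mod_cast (show 1 ≤ N by omega)
      linarith
    have := Real.log_le_log hTp h2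
    rw [Real.log_rpow hT0, Real.log_mul two_ne_zero hN0.ne'] at this
    rw [div_le_iff₀ hκ] at hlog
    linarith
  have hNhi : Real.log N ≤ Real.log T := Real.log_le_log hN0 (hfl.trans
    ((Real.rpow_le_rpow_of_exponent_le (by linarith) (by linarith)).trans
      (le_of_eq (Real.rpow_one T))))
  obtain ⟨X, hXd⟩ : ∃ X, X = √(Real.log T / Real.log (Real.log T)) := ⟨_, rfl⟩
  rw [← hXd] at hX hX' ⊢
  have hX0 : 0 ≤ X := hXd ▸ Real.sqrt_nonneg _
  have hcmp : c₀ * X ≤ c₁ * √(Real.log N / Real.log (Real.log N)) := by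
    refine (mul_le_mul_of_nonneg_right hκ1 hX0).trans ?_
    rw [mul_assoc]
    refine mul_le_mul_of_nonneg_left ?_ (hc00.trans hc₁).le
    have hk : 0 ≤ 1 - 2 * κ := by
      by_contra h
      rw [Real.sqrt_eq_zero'.2 (le_of_lt (not_le.1 h)), mul_zero] at hκ1
      linarith
    rw [hXd, ← Real.sqrt_mul hk]
    refine Real.sqrt_le_sqrt ?_
    rw [mul_div_assoc']
    exact (div_le_div_of_nonneg_right hNlo (Real.log_nonneg (hl1.le.trans hNhi))).trans
      (div_le_div_of_nonneg_left (by linarith) (Real.log_pos hl1)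
        (Real.log_le_log (by linarith) hNhi))
  have hbig : Real.exp (c₀ * X) ≤ 4 * ‖riemannZeta (1 / 2 + t * Complex.I)‖ + 2000 := by
    refine le_of_mul_le_mul_right ?_ hr0
    refine (mul_le_mul_of_nonneg_right (Real.exp_le_exp.2 hcmp) hr0.le).trans (hr.trans ?_)
    linarith
  rw [div_le_iff₀ (sub_pos.2 hc₀)] at hX
  rw [div_le_iff₀ hc00] at hX'
  have h1 : 4000 ≤ Real.exp (c₀ * X) := by
    rw [← Real.exp_log (show (0 : ℝ) < 4000 by norm_num), Real.exp_le_exp]
    linarith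
  have h2 : 8 * Real.exp (c * X) ≤ Real.exp (c₀ * X) := by
    rw [← Real.exp_log (show (0 : ℝ) < 8 by norm_num), ← Real.exp_add, Real.exp_le_exp]
    linarith
  linarith

end FA.Resonance
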