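import Fermat.Agent.Resonance.CharInequality
import Fermat.Agent.Resonance.Main

/-!
# Large values of `L (1/2, χ)` to a large modulus

The resonator of length `⌊q ^ (1/2 - κ)⌋` avoiding the primes of `q` gives
`exp (c √(log q / log log q))` for every `c < 1/√2`.
-/

set_option autoImplicit false

noncomputable section

namespace FA.Resonance

open Finset Filter Real
open scoped Topology

theorem prod_le_card_succ_mul_prod_pred (s : Finset ℕ) (hs : ∀ a ∈ s, 2 ≤ a) :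
    ∏ a ∈ s, a ≤ (#s + 1) * ∏ a ∈ s, (a - 1) := by
  induction s using Finset.induction_on_max with
  | empty => simp
  | insert a s hlt ih =>
    have ha : a ∉ s := fun h => (hlt a h).false
    have hs' : ∀ b ∈ s, 2 ≤ b := fun b hb => hs b (mem_insert_of_mem hb)
    have ha2 := hs a (mem_insert_self a s)
    have hcard : #s ≤ a - 2 := by
      simpa using card_le_card (t := Finset.Ico 2 a) fun b hb =>
        mem_Ico.2 ⟨hs' b hb, hlt b hb⟩
    rw [prod_insert ha, prod_insert ha, card_insert_of_notMem ha]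
    refine (Nat.mul_le_mul_left a (ih hs')).trans ?_
    rw [← mul_assoc, ← mul_assoc]
    refine Nat.mul_le_mul_right _ ?_
    obtain ⟨b, rfl⟩ : ∃ b, a = b + 2 := ⟨a - 2, by omega⟩
    rw [show b + 2 - 1 = b + 1 by omega]
    simp only [Nat.add_sub_cancel] at hcard
    nlinarith

theorem le_totient_mul_card_succ (q : ℕ) :
    (q : ℝ) ≤ q.totient * ((q.primeFactors.card : ℝ) + 1) := by
  have h : q ≤ q.totient * (q.primeFactors.card + 1) := by
    rcases q.eq_zero_or_pos with rfl | hq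
    · simp
    · refine Nat.le_of_mul_le_mul_right (c := ∏ p ∈ q.primeFactors, (p - 1)) ?_
        (prod_pos fun p hp => by have := (Nat.prime_of_mem_primeFactors hp).two_le; omega)
      rw [← Nat.totient_mul_prod_primeFactors, mul_assoc]
      exact Nat.mul_le_mul_left _ (prod_le_card_succ_mul_prod_pred _
        fun p hp => (Nat.prime_of_mem_primeFactors hp).two_le)
  exact_mod_cast h

theorem card_primeFactors_le_two_mul_log {q : ℕ} (hq : q ≠ 0) :
    (q.primeFactors.card : ℝ) ≤ 2 * Real.log q := by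
  have h : 2 ^ q.primeFactors.card ≤ q :=
    (pow_card_le_prod _ _ _ fun p hp => (Nat.prime_of_mem_primeFactors hp).two_le).trans
      (Nat.le_of_dvd (Nat.pos_of_ne_zero hq) (Nat.prod_primeFactors_dvd q))
  have h' : (2 : ℝ) ^ q.primeFactors.card ≤ q := by exact_mod_cast h
  have h'' := Real.log_le_log (by positivity) h'
  rw [Real.log_pow] at h''
  nlinarith [Real.log_two_gt_d9, (Nat.cast_nonneg q.primeFactors.card : (0 : ℝ) ≤ _)]

/-- **Large values of `L (1/2, χ)`.** -/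
theorem exists_large_lfunction {c : ℝ} (hc : c < 1 / √2) :
    ∀ᶠ q : ℕ in atTop, ∀ _ : NeZero q, ∃ χ : DirichletCharacter ℂ q, χ ≠ 1 ∧
      Real.exp (c * √(Real.log q / Real.log (Real.log q))) ≤
        ‖DirichletCharacter.LFunction χ (1 / 2)‖ := by
  have hs2 : (0 : ℝ) < √2 := Real.sqrt_pos.2 two_pos
  rw [lt_div_iff₀ hs2] at hc
  obtain ⟨d, hd, hd0, hd1⟩ : ∃ d, c * √2 < d ∧ 0 < d ∧ d < 1 :=
    ⟨(max (c * √2) 0 + 1) / 2, by linarith [le_max_left (c * √2) 0],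
      by linarith [le_max_right (c * √2) 0], by linarith [max_lt hc one_pos]⟩
  obtain ⟨c₀, hc₀d⟩ : ∃ c₀, c₀ = d / √2 := ⟨_, rfl⟩
  have hc₀ : c < c₀ := by rw [hc₀d, lt_div_iff₀ hs2]; linarith
  have hc00 : 0 < c₀ := hc₀d ▸ div_pos hd0 hs2
  obtain ⟨c₁, hc₁, hc11⟩ := exists_between hd1
  have hc10 : 0 < c₁ := hd0.trans hc₁
  obtain ⟨κ, hκ, hκ4, hκ1⟩ : ∃ κ : ℝ, 0 < κ ∧ κ < 1 / 4 ∧ c₀ ≤ c₁ * √(1 / 2 - 2 * κ) := by
    refine ⟨(1 / 2 - (c₀ / c₁) ^ 2) / 2, ?_, ?_, ?_⟩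
    · have h1 : (d / c₁) ^ 2 < 1 :=
        pow_lt_one₀ (div_nonneg hd0.le hc10.le) ((div_lt_one hc10).2 hc₁) two_ne_zero
      have h2 : (c₀ / c₁) ^ 2 = (d / c₁) ^ 2 / 2 := by
        rw [hc₀d, div_pow, div_pow, div_pow, Real.sq_sqrt zero_le_two]; ring
      linarith
    · linarith [show 0 < (c₀ / c₁) ^ 2 by positivity]
    · rw [show 1 / 2 - 2 * ((1 / 2 - (c₀ / c₁) ^ 2) / 2) = (c₀ / c₁) ^ 2 by ring,
        Real.sqrt_sq (div_nonneg hc00.le hc10.le), mul_div_cancel₀ _ hc10.ne']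
  have hk : 0 < 1 / 2 - 2 * κ := by linarith
  have hq' : Tendsto (fun q : ℕ => (q : ℝ)) atTop atTop := tendsto_natCast_atTop_atTop
  have hN : Tendsto (fun q : ℕ => ⌊(q : ℝ) ^ (1 / 2 - κ)⌋₊) atTop atTop :=
    tendsto_nat_floor_atTop.comp ((tendsto_rpow_atTop (by linarith)).comp hq')
  filter_upwards [hN.eventually (eventually_exists_resonator_avoiding hc11 (2 / (1 / 2 - 2 * κ))),
    hN.eventually (eventually_ge_atTop 3),
    hq'.eventually ((Real.tendsto_log_atTop.eventually_ge_atTop (max 1 (Real.log 2 / κ)))),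
    hq'.eventually ((isLittleO_log_rpow_atTop hκ).bound (show (0 : ℝ) < 1 / 3 by norm_num)),
    hq'.eventually (tendsto_log_div_loglog.eventually_ge_atTop (Real.log 4 / (c₀ - c))),
    hq'.eventually (tendsto_log_div_loglog.eventually_ge_atTop (Real.log 12 / c₀)),
    eventually_ge_atTop 3] with q hres hN3 hlog hsmall hX hX' hq3 hne
  obtain ⟨N, hNd⟩ : ∃ N, N = ⌊(q : ℝ) ^ (1 / 2 - κ)⌋₊ := ⟨_, rfl⟩
  rw [← hNd] at hres hN3
  rw [max_le_iff] at hlog
  have hq0 : (0 : ℝ) < q := Nat.cast_pos.2 (by omega)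
  have hq1 : (1 : ℝ) ≤ q := by exact_mod_cast (show 1 ≤ q by omega)
  have hN0 : (0 : ℝ) < N := Nat.cast_pos.2 (by omega)
  have hTp : (0 : ℝ) < (q : ℝ) ^ (1 / 2 - κ) := Real.rpow_pos_of_pos hq0 _
  have hfl : (N : ℝ) ≤ (q : ℝ) ^ (1 / 2 - κ) := hNd ▸ Nat.floor_le hTp.le
  have hNq : N < q := by
    rw [← Nat.cast_lt (α := ℝ)]
    calc (N : ℝ) ≤ (q : ℝ) ^ (1 / 2 - κ) := hfl
      _ < (q : ℝ) ^ (1 : ℝ) := Real.rpow_lt_rpow_of_exponent_lt
          (by exact_mod_cast (show 1 < q by omega)) (by linarith)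
      _ = q := Real.rpow_one _
  have hNlo : (1 / 2 - 2 * κ) * Real.log q ≤ Real.log N := by
    have h2 : (q : ℝ) ^ (1 / 2 - κ) ≤ 2 * N := by
      have h3 := Nat.lt_floor_add_one ((q : ℝ) ^ (1 / 2 - κ))
      rw [← hNd] at h3
      have : (1 : ℝ) ≤ N := by exact_mod_cast (show 1 ≤ N by omega)
      linarith
    have := Real.log_le_log hTp h2
    rw [Real.log_rpow hq0, Real.log_mul two_ne_zero hN0.ne'] at this
    have := (div_le_iff₀ hκ).1 hlog.2
    linarith
  have hl1 : 1 < Real.log N := by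
    refine (Real.lt_log_iff_exp_lt hN0).2 (lt_of_lt_of_le Real.exp_one_lt_three ?_)
    exact_mod_cast hN3
  have hNhi : Real.log N ≤ Real.log q := Real.log_le_log hN0 (Nat.cast_le.2 hNq.le)
  have hω := card_primeFactors_le_two_mul_log (show q ≠ 0 by omega)
  have hS : (#q.primeFactors : ℝ) ≤ 2 / (1 / 2 - 2 * κ) * Real.log N := by
    rw [div_mul_eq_mul_div, le_div_iff₀ hk]
    nlinarith [mul_le_mul_of_nonneg_right hω hk.le]
  obtain ⟨r, hr0, hrS, hE, hle⟩ := hres _ hS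
  have hcop : ∀ n, r n ≠ 0 → n.Coprime q := fun n hn =>
    (Nat.disjoint_primeFactors (hrS n hn).1 (by omega)).1 (hrS n hn).2
  obtain ⟨χ, hχ, hmax⟩ := exists_charMainSum_le hq3 hcop hr0 hNq
  refine ⟨χ, hχ, ?_⟩
  have herr : 3 * √(q : ℝ) * N / q.totient ≤ 3 := by
    have hφ : (0 : ℝ) < q.totient := Nat.cast_pos.2 (Nat.totient_pos.2 (by omega))
    have hqκ : (q : ℝ) ^ κ * ((q : ℝ) ^ (1 / 2 - κ) * √(q : ℝ)) = q := by
      rw [Real.sqrt_eq_rpow, ← Real.rpow_add hq0, ← Real.rpow_add hq0]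
      ring_nf
      exact Real.rpow_one _
    rw [Real.norm_of_nonneg (Real.log_nonneg hq1), Real.norm_of_nonneg (by positivity)] at hsmall
    have hω1 : (#q.primeFactors : ℝ) + 1 ≤ (q : ℝ) ^ κ := by
      linarith [hlog.1]
    rw [div_le_iff₀ hφ, mul_assoc]
    refine mul_le_mul_of_nonneg_left (le_of_mul_le_mul_left ?_ (Real.rpow_pos_of_pos hq0 κ))
      (by norm_num)
    calc (q : ℝ) ^ κ * (√(q : ℝ) * N) ≤ (q : ℝ) ^ κ * (√(q : ℝ) * (q : ℝ) ^ (1 / 2 - κ)) := by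
          gcongr
      _ = q := by rw [mul_comm √(q : ℝ)]; exact hqκ
      _ ≤ q.totient * ((#q.primeFactors : ℝ) + 1) := le_totient_mul_card_succ q
      _ ≤ q.totient * (q : ℝ) ^ κ := mul_le_mul_of_nonneg_left hω1 hφ.le
      _ = _ := mul_comm _ _
  -- compare the heights
  obtain ⟨X, hXd⟩ : ∃ X, X = √(Real.log q / Real.log (Real.log q)) := ⟨_, rfl⟩
  rw [← hXd] at hX hX' ⊢
  have hX0 : 0 ≤ X := hXd ▸ Real.sqrt_nonneg _
  have hcmp : c₀ * X ≤ c₁ * √(Real.log N / Real.log (Real.log N)) := by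
    refine (mul_le_mul_of_nonneg_right hκ1 hX0).trans ?_
    rw [mul_assoc]
    refine mul_le_mul_of_nonneg_left ?_ hc10.le
    rw [hXd, ← Real.sqrt_mul hk.le]
    refine Real.sqrt_le_sqrt ?_
    rw [mul_div_assoc']
    exact (div_le_div_of_nonneg_right hNlo (Real.log_nonneg (hl1.le.trans hNhi))).trans
      (div_le_div_of_nonneg_left (by linarith) (Real.log_pos hl1)
        (Real.log_le_log (by linarith) hNhi))
  have hbig : Real.exp (c₀ * X) ≤ 2 * ‖DirichletCharacter.LFunction χ (1 / 2)‖ + 6 := by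
    refine le_of_mul_le_mul_right ?_ hE
    refine (mul_le_mul_of_nonneg_right (Real.exp_le_exp.2 hcmp) hE.le).trans (hle.trans ?_)
    nlinarith [mul_le_mul_of_nonneg_right herr hE.le]
  rw [div_le_iff₀ (sub_pos.2 hc₀)] at hX
  rw [div_le_iff₀ hc00] at hX'
  have h1 : 12 ≤ Real.exp (c₀ * X) := by
    rw [← Real.exp_log (show (0 : ℝ) < 12 by norm_num), Real.exp_le_exp]
    linarith
  have h2 : 4 * Real.exp (c * X) ≤ Real.exp (c₀ * X) := by
    rw [← Real.exp_log (show (0 : ℝ) < 4 by norm_num), ← Real.exp_add, Real.exp_le_exp]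
    linarith
  linarith

end FA.Resonance
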