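import Fermat.Agent.Resonance.Window
import Fermat.Agent.SecondMoment.Main

/-!
# The resonance inequality

Against `‖R‖²`, `R` a Dirichlet polynomial of length `N ≤ T ^ (1 - ε)`, in a Gaussian window about
`3T/2` only the diagonal `k m = n` of the truncated series survives, as two different integers one
of which is at most `N` have logarithms at least `1/(N + 1)` apart. So the diagonal sum is at most
the largest `‖ζ (1/2 + it)‖`, `T ≤ t ≤ 2T`, times the energy of `R`, up to constants.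
-/

set_option autoImplicit false

noncomputable section

namespace FA.Resonance

open Finset Filter Complex MeasureTheory
open FA.SecondMoment (lineSum truncErr norm_truncErr_le continuous_lineSum)
open scoped Topology Real ComplexConjugate

variable (r : ℕ → ℝ) (N : ℕ)

/-- `∑ r n n^(-it)`. -/
def reso (t : ℝ) : ℂ := ∑ n ∈ Icc 1 N, (r n : ℂ) * wave (-Real.log n) t

/-- `∑ r n²`. -/
def energy : ℝ := ∑ n ∈ Icc 1 N, r n ^ 2

/-- `∑_{k m ≤ N} r m r (k m) / √k`. -/
def mainSum : ℝ := ∑ k ∈ Icc 1 N, ∑ m ∈ Icc 1 (N / k), r m * r (k * m) / √(k : ℝ)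

/-- `∑ c k k^(-it)`. -/
def waveSum (c : ℕ → ℝ) (M : ℕ) (t : ℝ) : ℂ :=
  ∑ k ∈ Icc 1 M, (c k : ℂ) * wave (-Real.log k) t

/-- `∑_{k m ≤ N} c k r m r (k m)`. -/
def diagSum (c r : ℕ → ℝ) (N : ℕ) : ℝ :=
  ∑ k ∈ Icc 1 N, ∑ m ∈ Icc 1 (N / k), c k * (r m * r (k * m))

theorem energy_nonneg : 0 ≤ energy r N := sum_nonneg fun _ _ => sq_nonneg _

theorem continuous_reso : Continuous (reso r N) :=
  continuous_finsetSum _ fun _ _ => continuous_const.mul (continuous_wave _)

theorem norm_reso_sq_le (t : ℝ) : ‖reso r N t‖ ^ 2 ≤ N * energy r N := by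
  refine (pow_le_pow_left₀ (norm_nonneg _) (norm_sum_le _ _) 2).trans ?_
  refine (sq_sum_le_card_mul_sum_sq).trans (le_of_eq ?_)
  simp [energy, norm_wave]

theorem sum_abs_sq_le : (∑ n ∈ Icc 1 N, |r n|) ^ 2 ≤ N * energy r N :=
  sq_sum_le_card_mul_sum_sq.trans (le_of_eq (by simp [energy]))

theorem sum_inv_sqrt_le (M : ℕ) : ∑ k ∈ Icc 1 M, 1 / √(k : ℝ) ≤ 2 * √(M : ℝ) := by
  induction M with
  | zero => simp
  | succ M ih =>
    rw [sum_Icc_succ_top (by omega : 1 ≤ M + 1)]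
    push_cast
    have h0 : (0 : ℝ) ≤ M := Nat.cast_nonneg M
    have hp : (0 : ℝ) < √((M : ℝ) + 1) := Real.sqrt_pos.2 (by linarith)
    have key : 1 / √((M : ℝ) + 1) ≤ 2 * √((M : ℝ) + 1) - 2 * √(M : ℝ) := by
      rw [div_le_iff₀ hp]
      nlinarith [Real.sq_sqrt h0, Real.sq_sqrt (show (0 : ℝ) ≤ (M : ℝ) + 1 by linarith),
        sq_nonneg (√((M : ℝ) + 1) - √(M : ℝ))]
    linarith

/-- The separation of logarithms. -/
theorem inv_le_abs_log_sub {N n b : ℕ} (hn : 1 ≤ n) (hnN : n ≤ N) (hb : 1 ≤ b) (hne : n ≠ b) :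
    1 / ((N : ℝ) + 1) ≤ |Real.log n - Real.log b| := by
  have hn0 : (0 : ℝ) < n := Nat.cast_pos.2 hn
  have hb0 : (0 : ℝ) < b := Nat.cast_pos.2 hb
  have hN : (n : ℝ) ≤ N := Nat.cast_le.2 hnN
  rcases hne.lt_or_gt with h | h
  · have h1 : (n : ℝ) + 1 ≤ b := by exact_mod_cast h
    have hl := Real.one_sub_inv_le_log_of_pos (div_pos hb0 hn0)
    rw [Real.log_div hb0.ne' hn0.ne', inv_div] at hl
    refine le_trans ?_ (abs_sub_comm (Real.log n) _ ▸ le_abs_self (Real.log b - Real.log n))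
    refine le_trans ?_ hl
    rw [one_sub_div hb0.ne', div_le_div_iff₀ (by linarith) hb0]
    nlinarith
  · have h1 : (b : ℝ) + 1 ≤ n := by exact_mod_cast h
    have hl := Real.one_sub_inv_le_log_of_pos (div_pos hn0 hb0)
    rw [Real.log_div hn0.ne' hb0.ne', inv_div] at hl
    refine le_trans ?_ (hl.trans (le_abs_self _))
    rw [one_sub_div hn0.ne', div_le_div_iff₀ (by linarith) hn0]
    nlinarith

theorem ofReal_norm_reso_sq (t : ℝ) :
    ((‖reso r N t‖ ^ 2 : ℝ) : ℂ) = ∑ p ∈ Icc 1 N ×ˢ Icc 1 N,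
      ((r p.1 * r p.2 : ℝ) : ℂ) * wave (Real.log p.2 - Real.log p.1) t := by
  rw [Complex.ofReal_pow, ← Complex.mul_conj', reso, map_sum, sum_mul_sum, ← sum_product']
  refine sum_congr rfl fun p _ => ?_
  rw [map_mul, Complex.conj_ofReal, conj_wave, neg_neg,
    show Real.log p.2 - Real.log p.1 = -Real.log p.1 + Real.log p.2 by ring, wave_add]
  push_cast
  ring

theorem lineSum_eq_wave (M : ℕ) (t : ℝ) :
    lineSum M t = ∑ k ∈ Icc 1 M, ((1 / √(k : ℝ) : ℝ) : ℂ) * wave (-Real.log k) t := by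
  refine sum_congr rfl fun k hk => ?_
  have h0 : (k : ℂ) ≠ 0 := Nat.cast_ne_zero.2 (Nat.one_le_iff_ne_zero.1 (mem_Icc.1 hk).1)
  rw [Complex.cpow_add _ _ h0, ← div_div]
  rw [div_eq_mul_inv _ ((k : ℂ) ^ ((t : ℂ) * I))]
  congr 1
  · rw [Real.sqrt_eq_rpow, Complex.ofReal_div, Complex.ofReal_one,
      Complex.ofReal_cpow (Nat.cast_nonneg k)]
    push_cast
    rfl
  · rw [wave, ← Complex.cpow_neg, Complex.cpow_def_of_ne_zero h0, ← Complex.natCast_log]
    push_cast
    ring_nf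

/-- **The resonance inequality** for any series with nonnegative coefficients. -/
theorem diagSum_le {T : ℝ} (hT : 3 ≤ T) {M : ℕ} (hNM : N ≤ M) {c : ℕ → ℝ} (hc : ∀ k, 0 ≤ c k)
    {V : ℝ} (hV0 : 0 ≤ V) (hV : ∀ t ∈ Set.Icc T (2 * T), ‖waveSum c M t‖ ≤ V) {δ : ℝ}
    (hδ : Real.exp (-(T / Real.log T / (2 * ((N : ℝ) + 1))) ^ 2) ≤ δ) :
    diagSum c r N ≤ (V * (1 + δ * N) +
      (∑ k ∈ Icc 1 M, c k) * N * (δ + 2 * Real.exp (-(Real.log T) ^ 2 / 8))) * energy r N := by
  classical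
  obtain ⟨H, hH⟩ : ∃ H, H = T / Real.log T := ⟨_, rfl⟩
  rw [← hH] at hδ
  have hlog : 0 < Real.log T := Real.log_pos (by linarith)
  have hH0 : 0 < H := hH ▸ div_pos (by linarith) hlog
  have hδ0 : 0 ≤ δ := (Real.exp_pos _).le.trans hδ
  obtain ⟨t₀, ht₀⟩ : ∃ t₀, t₀ = 3 * T / 2 := ⟨_, rfl⟩
  obtain ⟨G, hG⟩ : ∃ G, G = ∑ k ∈ Icc 1 M, c k := ⟨_, rfl⟩
  have hG0 : 0 ≤ G := hG ▸ sum_nonneg fun k _ => hc k
  rw [← hG]
  obtain ⟨e, he⟩ : ∃ e, e = Real.exp (-(Real.log T) ^ 2 / 8) := ⟨_, rfl⟩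
  rw [← he]
  have he0 : 0 < e := he ▸ Real.exp_pos _
  have hfar : ∀ l : ℝ, 1 / ((N : ℝ) + 1) ≤ |l| → Real.exp (-(l * H / 2) ^ 2) ≤ δ := fun l hl => by
    refine le_trans ?_ hδ
    rw [Real.exp_le_exp, neg_le_neg_iff, sq_le_sq, abs_of_pos (by positivity), abs_div, abs_mul,
      abs_of_pos hH0, abs_two]
    refine le_of_eq_of_le ?_ (div_le_div_of_nonneg_right
      (mul_le_mul_of_nonneg_right hl hH0.le) zero_le_two)
    field_simp
  -- the energy
  have hJ : ∫ t, window t₀ H t * ‖reso r N t‖ ^ 2 ≤ √π * H * ((1 + δ * N) * energy r N) := by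
    obtain ⟨D, hD⟩ : ∃ D, D = (Icc 1 N ×ˢ Icc 1 N).filter fun p : ℕ × ℕ => p.1 = p.2 := ⟨_, rfl⟩
    have hb := norm_window_sum_sub_le (s := Icc 1 N ×ˢ Icc 1 N) (D := D) (hD ▸ filter_subset _ _)
      (fun p : ℕ × ℕ => ((r p.1 * r p.2 : ℝ) : ℂ))
      (fun p : ℕ × ℕ => Real.log p.2 - Real.log p.1) t₀ hH0 hδ0
      (fun p hp => by rw [hD, mem_filter] at hp; rw [hp.2, sub_self]) (fun p hp hpD => hfar _ ?_)
    · simp only [← ofReal_norm_reso_sq, ← Complex.ofReal_mul] at hb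
      have hdiag : ∑ p ∈ D, r p.1 * r p.2 = energy r N := by
        rw [hD, sum_filter, sum_product, energy]
        exact sum_congr rfl fun n hn => by rw [sum_ite_eq, if_pos hn, sq]
      have hsum : ∑ p ∈ Icc 1 N ×ˢ Icc 1 N, ‖((r p.1 * r p.2 : ℝ) : ℂ)‖ ≤ N * energy r N := by
        refine le_trans (le_of_eq ?_) (sum_abs_sq_le r N)
        rw [sq, sum_mul_sum, ← sum_product']
        simp
      rw [integral_complex_ofReal, ← Complex.ofReal_sum, hdiag, ← Complex.ofReal_mul,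
        ← Complex.ofReal_sub, Complex.norm_real, Real.norm_eq_abs] at hb
      have := (abs_le.1 hb).2
      nlinarith [mul_le_mul_of_nonneg_left hsum (show 0 ≤ √π * H * δ by positivity)]
    · rw [Finset.mem_product, mem_Icc, mem_Icc] at hp
      refine inv_le_abs_log_sub hp.2.1 hp.2.2 hp.1.1 fun h => hpD ?_
      rw [hD, mem_filter, Finset.mem_product, mem_Icc, mem_Icc]
      exact ⟨hp, h.symm⟩
  -- the diagonal
  have hI : √π * H * diagSum c r N ≤ (∫ t, window t₀ H t * (‖waveSum c M t‖ * ‖reso r N t‖ ^ 2)) +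
      √π * H * δ * (G * (N * energy r N)) := by
    obtain ⟨S, hS⟩ : ∃ S, S = Icc 1 M ×ˢ (Icc 1 N ×ˢ Icc 1 N) := ⟨_, rfl⟩
    obtain ⟨D, hD⟩ : ∃ D, D = S.filter fun i : ℕ × ℕ × ℕ => i.1 * i.2.1 = i.2.2 := ⟨_, rfl⟩
    have hb := norm_window_sum_sub_le (s := S) (D := D) (hD ▸ filter_subset _ _)
      (fun i : ℕ × ℕ × ℕ => ((c i.1 : ℝ) : ℂ) * ((r i.2.1 * r i.2.2 : ℝ) : ℂ))
      (fun i : ℕ × ℕ × ℕ => -Real.log i.1 + (Real.log i.2.2 - Real.log i.2.1)) t₀ hH0 hδ0
      (fun i hi => ?_) (fun i hi hiD => hfar _ ?_)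
    · have hprod : ∀ t : ℝ, ∑ i ∈ S, ((c i.1 : ℝ) : ℂ) * ((r i.2.1 * r i.2.2 : ℝ) : ℂ) *
          wave (-Real.log i.1 + (Real.log i.2.2 - Real.log i.2.1)) t =
          waveSum c M t * ((‖reso r N t‖ ^ 2 : ℝ) : ℂ) := fun t => by
        rw [waveSum, ofReal_norm_reso_sq, sum_mul_sum, ← sum_product', hS]
        exact sum_congr rfl fun i _ => by rw [wave_add]; ring
      simp only [hprod] at hb
      have hdiag : ∑ i ∈ D, ((c i.1 : ℝ) : ℂ) * ((r i.2.1 * r i.2.2 : ℝ) : ℂ) =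
          ((diagSum c r N : ℝ) : ℂ) := by
        simp only [← Complex.ofReal_mul, ← Complex.ofReal_sum, diagSum, sum_sigma']
        congr 1
        refine (sum_bij' (fun (x : Σ _ : ℕ, ℕ) _ => (x.1, x.2, x.1 * x.2))
          (fun i _ => ⟨i.1, i.2.1⟩) ?_ ?_ (fun _ _ => rfl) ?_ fun x _ => rfl).symm
        · intro x hx
          simp only [mem_sigma, mem_Icc] at hx
          simp only [hD, hS, mem_filter, Finset.mem_product, mem_Icc]
          have h1 := (Nat.le_div_iff_mul_le hx.1.1).1 hx.2.2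
          refine ⟨⟨⟨hx.1.1, hx.1.2.trans hNM⟩, ⟨hx.2.1, hx.2.2.trans (Nat.div_le_self _ _)⟩,
            Nat.mul_pos hx.1.1 hx.2.1, by rwa [mul_comm]⟩, trivial⟩
        · intro i hi
          simp only [hD, hS, mem_filter, Finset.mem_product, mem_Icc] at hi
          simp only [mem_sigma, mem_Icc]
          obtain ⟨⟨⟨h1, -⟩, ⟨h2, -⟩, -, h3⟩, h4⟩ := hi
          refine ⟨⟨h1, le_trans (Nat.le_mul_of_pos_right _ h2) (h4 ▸ h3)⟩, h2,
            (Nat.le_div_iff_mul_le h1).2 ?_⟩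
          rwa [mul_comm, h4]
        · intro i hi
          simp only [hD, mem_filter] at hi
          rw [hi.2]
      have hsum : ∑ i ∈ S, ‖((c i.1 : ℝ) : ℂ) * ((r i.2.1 * r i.2.2 : ℝ) : ℂ)‖ ≤
          G * (N * energy r N) := by
        rw [hS, sum_product]
        simp only [norm_mul, Complex.norm_real, Real.norm_eq_abs, ← mul_sum, ← sum_mul]
        refine mul_le_mul ?_ ?_ (sum_nonneg fun _ _ => by positivity) (by positivity)
        · exact le_of_eq (hG ▸ sum_congr rfl fun k _ => abs_of_nonneg (hc k))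
        · refine le_trans (le_of_eq ?_) (sum_abs_sq_le r N)
          rw [sq, sum_mul_sum, ← sum_product']
      rw [hdiag, norm_sub_rev] at hb
      have hle := ((norm_le_norm_add_norm_sub' _
        (∫ t, (window t₀ H t : ℂ) * (waveSum c M t * ((‖reso r N t‖ ^ 2 : ℝ) : ℂ)))).trans
          (add_le_add (norm_integral_le_integral_norm _) (hb.trans (mul_le_mul_of_nonneg_left hsum
            (show 0 ≤ √π * H * δ by positivity)))))
      rw [norm_mul, Complex.norm_real, Complex.norm_real, Real.norm_of_nonneg (by positivity)]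
        at hle
      refine le_trans (mul_le_mul_of_nonneg_left (le_abs_self _) (by positivity)) (hle.trans ?_)
      refine add_le_add (le_of_eq (integral_congr_ae (Eventually.of_forall fun t => ?_))) le_rfl
      show ‖(window t₀ H t : ℂ) * (waveSum c M t * ((‖reso r N t‖ ^ 2 : ℝ) : ℂ))‖ = _
      rw [norm_mul, norm_mul, Complex.norm_real, Complex.norm_real,
        Real.norm_of_nonneg (window_pos t₀ H t).le, Real.norm_of_nonneg (sq_nonneg _)]
    · simp only [hD, hS, mem_filter, Finset.mem_product, mem_Icc] at hi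
      obtain ⟨⟨⟨h1, -⟩, ⟨h2, -⟩, -⟩, h4⟩ := hi
      rw [← h4, Nat.cast_mul, Real.log_mul (Nat.cast_ne_zero.2 (by omega))
        (Nat.cast_ne_zero.2 (by omega))]
      ring
    · simp only [hS, Finset.mem_product, mem_Icc] at hi
      obtain ⟨⟨h1, _⟩, ⟨h2, _⟩, h3, h4⟩ := hi
      rw [show -Real.log i.1 + (Real.log i.2.2 - Real.log i.2.1) =
        Real.log i.2.2 - Real.log ((i.1 * i.2.1 : ℕ) : ℝ) by
          rw [Nat.cast_mul, Real.log_mul (Nat.cast_ne_zero.2 (by omega))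
            (Nat.cast_ne_zero.2 (by omega))]
          ring]
      refine inv_le_abs_log_sub h3 h4 (Nat.mul_pos h1 h2) fun h => hiD ?_
      simp only [hD, hS, mem_filter, Finset.mem_product, mem_Icc]
      refine ⟨?_, h.symm⟩
      exact ⟨⟨h1, by assumption⟩, ⟨h2, by assumption⟩, h3, h4⟩
  -- inside and outside `[T, 2T]`
  obtain ⟨W, hW⟩ : ∃ W, W = G * (N * energy r N) * e := ⟨_, rfl⟩
  have hpt : ∀ t, window t₀ H t * (‖waveSum c M t‖ * ‖reso r N t‖ ^ 2) ≤
      V * (window t₀ H t * ‖reso r N t‖ ^ 2) + W * window t₀ (√2 * H) t := by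
    intro t
    have hw := (window_pos t₀ H t).le
    have hR := norm_reso_sq_le r N t
    have hW0 : 0 ≤ W := hW ▸ by
      have := energy_nonneg r N
      positivity
    have hw2 := (window_pos t₀ (√2 * H) t).le
    by_cases ht : t ∈ Set.Icc T (2 * T)
    · refine le_add_of_le_of_nonneg ?_ (by positivity)
      rw [mul_left_comm]
      exact mul_le_mul_of_nonneg_right (hV t ht) (by positivity)
    · refine le_add_of_nonneg_of_le (by positivity) ?_
      have hwle : window t₀ H t ≤ e * window t₀ (√2 * H) t := by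
        rw [he, window, window, ← Real.exp_add, Real.exp_le_exp]
        have h2 : ((t - t₀) / (√2 * H)) ^ 2 = ((t - t₀) / H) ^ 2 / 2 := by
          rw [div_pow, div_pow, mul_pow, Real.sq_sqrt zero_le_two]; ring
        have h3 : Real.log T / 2 ≤ |(t - t₀) / H| := by
          rw [abs_div, abs_of_pos hH0, le_div_iff₀ hH0, hH]
          field_simp
          simp only [Set.mem_Icc, not_and_or, not_le] at ht
          rcases ht with h | h
          · linarith [neg_le_abs (t - t₀)]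
          · linarith [le_abs_self (t - t₀)]
        have h4 := pow_le_pow_left₀ (by positivity) h3 2
        rw [sq_abs] at h4
        rw [h2]
        linarith
      have hD : ‖waveSum c M t‖ ≤ G := by
        rw [waveSum, hG]
        refine (norm_sum_le _ _).trans (le_of_eq (sum_congr rfl fun k _ => ?_))
        rw [norm_mul, norm_wave, mul_one, Complex.norm_real, Real.norm_of_nonneg (hc k)]
      refine (mul_le_mul hwle (mul_le_mul hD hR (sq_nonneg _) (by positivity))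
        (by positivity) (by positivity)).trans (le_of_eq ?_)
      rw [hW]
      ring
  have hwi : Integrable fun t => window t₀ H t * ‖reso r N t‖ ^ 2 :=
    Integrable.mono' ((integrable_window t₀ hH0).mul_const ((N : ℝ) * energy r N))
      ((continuous_window t₀ H).mul (continuous_reso r N).norm |>.mul
        (continuous_reso r N).norm |>.aestronglyMeasurable.congr
          (Eventually.of_forall fun t => by simp [sq, mul_assoc]))
      (Eventually.of_forall fun t => by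
        rw [Real.norm_of_nonneg (by have := window_pos t₀ H t; positivity)]
        exact mul_le_mul_of_nonneg_left (norm_reso_sq_le r N t) (window_pos t₀ H t).le)
  have hw2i := integrable_window t₀ (show 0 < √2 * H by positivity)
  have hint : ∫ t, window t₀ H t * (‖waveSum c M t‖ * ‖reso r N t‖ ^ 2) ≤
      V * (√π * H * ((1 + δ * N) * energy r N)) + W * (2 * (√π * H)) := by
    refine (integral_mono_of_nonneg (Eventually.of_forall fun t => by
      have := window_pos t₀ H t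
      positivity) ((hwi.const_mul _).add (hw2i.const_mul W)) (Eventually.of_forall hpt)).trans ?_
    simp only [Pi.add_apply]
    rw [integral_add (hwi.const_mul _) (hw2i.const_mul W), integral_const_mul, integral_const_mul,
      integral_window t₀ (show 0 < √2 * H by positivity)]
    refine add_le_add (mul_le_mul_of_nonneg_left hJ (by linarith)) ?_
    refine mul_le_mul_of_nonneg_left ?_ (hW ▸ by have := energy_nonneg r N; positivity)
    have : √2 ≤ 2 := Real.sqrt_le_iff.2 ⟨zero_le_two, by norm_num⟩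
    nlinarith [mul_nonneg (Real.sqrt_nonneg π) hH0.le]
  rw [hW] at hint
  refine le_of_mul_le_mul_left ?_ (show 0 < √π * H by positivity)
  refine hI.trans ?_
  linarith

theorem mainSum_le {T : ℝ} (hT : 3 ≤ T) (hN : (N : ℝ) ≤ T) {V : ℝ}
    (hV : ∀ t ∈ Set.Icc T (2 * T), ‖riemannZeta (1 / 2 + t * I)‖ ≤ V) {δ : ℝ}
    (hδ : Real.exp (-(T / Real.log T / (2 * ((N : ℝ) + 1))) ^ 2) ≤ δ) :
    mainSum r N ≤ ((V + 280) * (1 + δ * N) +
      2 * √(2 * T) * N * (δ + 2 * Real.exp (-(Real.log T) ^ 2 / 8))) * energy r N := by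
  obtain ⟨M, hM⟩ : ∃ M, M = ⌊2 * T⌋₊ := ⟨_, rfl⟩
  have hMT : (M : ℝ) ≤ 2 * T := hM ▸ Nat.floor_le (by linarith)
  have hTM : 2 * T ≤ (M : ℝ) + 1 := hM ▸ (Nat.lt_floor_add_one _).le
  have hV0 : 0 ≤ V := (norm_nonneg _).trans (hV T ⟨le_rfl, by linarith⟩)
  have hδ0 : 0 ≤ δ := (Real.exp_pos _).le.trans hδ
  have e : mainSum r N = diagSum (fun k => 1 / √(k : ℝ)) r N :=
    sum_congr rfl fun k _ => sum_congr rfl fun m _ => by ring
  rw [e]
  refine (diagSum_le r N hT (hM ▸ Nat.le_floor (by linarith)) (fun k => by positivity)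
    (show 0 ≤ V + 280 by linarith) (fun t ht => ?_) hδ).trans ?_
  · show ‖waveSum (fun k => 1 / √(k : ℝ)) M t‖ ≤ _
    rw [waveSum, ← lineSum_eq_wave, show lineSum M t = riemannZeta (1 / 2 + t * I) - truncErr M t by
      rw [truncErr, lineSum]; ring]
    refine (norm_sub_le _ _).trans (add_le_add (hV t ht) ?_)
    refine (norm_truncErr_le (show 2 ≤ t by linarith [ht.1]) (by linarith [ht.2])).trans ?_
    have : √((M : ℝ) + 1) / t ≤ 1 := by
      rw [div_le_one (by linarith [ht.1]), Real.sqrt_le_iff]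
      exact ⟨by linarith [ht.1], by nlinarith [ht.1]⟩
    linarith
  · refine mul_le_mul_of_nonneg_right (add_le_add le_rfl (mul_le_mul_of_nonneg_right
      (mul_le_mul_of_nonneg_right ((sum_inv_sqrt_le M).trans ?_) (Nat.cast_nonneg N))
        (by positivity))) (energy_nonneg r N)
    exact mul_le_mul_of_nonneg_left (Real.sqrt_le_sqrt hMT) zero_le_two

/-- **The resonance inequality.** -/
theorem eventually_exists_large {ε : ℝ} (hε : 0 < ε) :
    ∀ᶠ T : ℝ in atTop, ∀ (r : ℕ → ℝ) (N : ℕ), (N : ℝ) ≤ T ^ (1 - ε) →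
      ∃ t ∈ Set.Icc T (2 * T),
        mainSum r N ≤ (2 * ‖riemannZeta (1 / 2 + t * I)‖ + 1000) * energy r N := by
  obtain ⟨κ, hκ⟩ : ∃ κ, κ = min ε (1 / 2) := ⟨_, rfl⟩
  have hκ0 : 0 < κ := hκ ▸ lt_min hε one_half_pos
  have hκε : κ ≤ ε := hκ ▸ min_le_left _ _
  have hκ1 : κ ≤ 1 := hκ ▸ (min_le_right _ _).trans (by norm_num)
  have hlim : ∀ᶠ T : ℝ in atTop, 8 * Real.log T * Real.log T ≤ T ^ κ := by
    filter_upwards [((isLittleO_log_rpow_atTop (half_pos hκ0)).bound (show (0 : ℝ) < 1 / 3 by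
      norm_num)), eventually_ge_atTop (1 : ℝ)] with T hT hT1
    rw [Real.norm_of_nonneg (Real.log_nonneg hT1), Real.norm_of_nonneg (by positivity)] at hT
    have h := pow_le_pow_left₀ (Real.log_nonneg hT1) hT 2
    rw [mul_pow, ← Real.rpow_natCast (T ^ (κ / 2)), ← Real.rpow_mul (by linarith)] at h
    norm_num at h
    nlinarith [Real.rpow_nonneg (show (0 : ℝ) ≤ T by linarith) κ]
  filter_upwards [hlim, Real.tendsto_log_atTop.eventually_ge_atTop 24,
    eventually_ge_atTop (3 : ℝ)] with T hTκ hlog hT r N hN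
  have hT0 : (0 : ℝ) < T := by linarith
  obtain ⟨X, hX⟩ : ∃ X, X = T ^ κ := ⟨_, rfl⟩
  have hX1 : 1 ≤ X := hX ▸ Real.one_le_rpow (by linarith) hκ0.le
  have hXT : X ≤ T := hX ▸ (Real.rpow_le_rpow_of_exponent_le (by linarith) hκ1).trans
    (le_of_eq (Real.rpow_one T))
  have hNX : (N : ℝ) * X ≤ T := by
    have h := hN.trans (Real.rpow_le_rpow_of_exponent_le (show (1 : ℝ) ≤ T by linarith)
      (show 1 - ε ≤ 1 - κ by linarith))
    rw [Real.rpow_sub hT0, Real.rpow_one, ← hX, le_div_iff₀ (by linarith)] at h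
    exact h
  have hN1 : (N : ℝ) ≤ T := (le_mul_of_one_le_right (Nat.cast_nonneg N) hX1).trans hNX
  obtain ⟨t, ht, hmax⟩ := isCompact_Icc.exists_isMaxOn
    (Set.nonempty_Icc.2 (show T ≤ 2 * T by linarith))
    FA.SecondMoment.continuous_zeta_line.norm.continuousOn
  refine ⟨t, ht, ?_⟩
  obtain ⟨e, he⟩ : ∃ e, e = Real.exp (-(Real.log T) ^ 2 / 8) := ⟨_, rfl⟩
  have he0 : 0 < e := he ▸ Real.exp_pos _
  have hδle : Real.exp (-(T / Real.log T / (2 * ((N : ℝ) + 1))) ^ 2) ≤ e := by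
    rw [he, Real.exp_le_exp]
    have h1 : Real.log T ≤ T / Real.log T / (2 * ((N : ℝ) + 1)) := by
      rw [le_div_iff₀ (by positivity), le_div_iff₀ (by linarith)]
      rw [← hX] at hTκ
      nlinarith [mul_le_mul_of_nonneg_left hTκ (show 0 ≤ (N : ℝ) + 1 by positivity),
        mul_nonneg (show 0 ≤ (N : ℝ) + 1 by positivity) (mul_self_nonneg (Real.log T))]
    nlinarith [pow_le_pow_left₀ (by linarith) h1 2, sq_nonneg (Real.log T)]
  have hT2e : T ^ 2 * e ≤ 1 := by
    have h2 : T ^ 2 = Real.exp (2 * Real.log T) := by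
      rw [two_mul, Real.exp_add, Real.exp_log hT0, sq]
    rw [h2, he, ← Real.exp_add, Real.exp_le_one_iff]
    nlinarith
  refine (mainSum_le r N hT hN1 (fun u hu => hmax hu) hδle).trans ?_
  rw [← he]
  refine mul_le_mul_of_nonneg_right ?_ (energy_nonneg r N)
  have hNe : e * (N : ℝ) ≤ 1 := by nlinarith [mul_le_mul_of_nonneg_left hN1 he0.le]
  have hsq : √(2 * T) ≤ T := Real.sqrt_le_iff.2 ⟨hT0.le, by nlinarith⟩
  have hrest : √(2 * T) * (N : ℝ) * e ≤ 1 :=
    (mul_le_mul_of_nonneg_right (mul_le_mul hsq hN1 (Nat.cast_nonneg N) hT0.le) he0.le).trans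
      (by rwa [← sq])
  nlinarith [norm_nonneg (riemannZeta (1 / 2 + t * I))]

end FA.Resonance
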