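import Fermat.Agent.Resonance.Inequality
import Fermat.Agent.SiegelWalfisz.Bounds
import Mathlib.NumberTheory.DirichletCharacter.Orthogonality

/-!
# The resonance inequality for the characters to a modulus

Orthogonality replaces the window: against `‖R (χ)‖²`, `R` of length `N < q`, the series of
`L (1/2, χ)` up to `q` keeps its terms with `k m ≡ n`, among them the diagonal `k m = n`; what
follows `q` averages to `O (N φ(q) / √q)` times the energy, and the trivial character to `O (√q N)`.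
-/

set_option autoImplicit false

noncomputable section

namespace FA.Resonance

open Finset MeasureTheory
open DirichletCharacter (LFunction)
open FA.Siegel (charSum)
open scoped Real ComplexConjugate

variable {q : ℕ} [NeZero q] (r : ℕ → ℝ) (N : ℕ)

/-- `∑ r n χ(n)`. -/
def charReso (χ : DirichletCharacter ℂ q) : ℂ := ∑ n ∈ Icc 1 N, (r n : ℂ) * χ (n : ZMod q)

/-- `∑ r m r n` over the `k m ≡ n`. -/
def congrSum (q k : ℕ) : ℝ :=
  ∑ m ∈ Icc 1 N, ∑ n ∈ Icc 1 N, if (n : ZMod q) = (k : ZMod q) * m then r m * r n else 0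

/-- The indicator of the residues prime to `q`. -/
def unitInd (q k : ℕ) : ℝ := if k.Coprime q then 1 else 0

variable {r N}

/-- Orthogonality against `‖R‖²`. -/
theorem sum_char_mul_reso_sq (hr : ∀ n, r n ≠ 0 → n.Coprime q) (k : ℕ) :
    ∑ χ : DirichletCharacter ℂ q, χ (k : ZMod q) * ((‖charReso r N χ‖ ^ 2 : ℝ) : ℂ) =
      ((q.totient * congrSum r N q k : ℝ) : ℂ) := by
  simp only [Complex.ofReal_pow, ← Complex.mul_conj', charReso, map_sum, sum_mul_sum]
  simp only [mul_sum, congrSum, Complex.ofReal_sum]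
  rw [sum_comm]
  refine sum_congr rfl fun m _ => ?_
  rw [sum_comm]
  refine sum_congr rfl fun n _ => ?_
  rcases eq_or_ne (r n) 0 with hn | hn
  · simp [hn]
  · have hu : IsUnit (n : ZMod q) := (ZMod.isUnit_iff_coprime n q).2 (hr n hn)
    rw [sum_congr rfl (g := fun χ : DirichletCharacter ℂ q => ((r m * r n : ℝ) : ℂ) *
      (χ (n : ZMod q)⁻¹ * χ ((k : ZMod q) * m))) fun χ _ => ?_, ← mul_sum,
      DirichletCharacter.sum_char_inv_mul_char_eq ℂ hu]
    · split_ifs <;> push_cast <;> ring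
    · rw [map_mul, map_mul, Complex.conj_ofReal, starRingEnd_apply, MulChar.star_apply',
        MulChar.inv_apply_eq_inv', inv_eq_of_mul_eq_one_left (a := χ ((n : ZMod q)⁻¹))
          (by rw [← map_mul, ZMod.inv_mul_of_unit _ hu, map_one])]
      push_cast
      ring

omit [NeZero q] in
theorem congrSum_nonneg (hr : ∀ n, 0 ≤ r n) (k : ℕ) : 0 ≤ congrSum r N q k :=
  sum_nonneg fun m _ => sum_nonneg fun n _ => by
    split_ifs
    exacts [mul_nonneg (hr m) (hr n), le_rfl]

theorem sum_norm_reso_sq (hr : ∀ n, r n ≠ 0 → n.Coprime q) (hN : N < q) :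
    ∑ χ : DirichletCharacter ℂ q, ‖charReso r N χ‖ ^ 2 = q.totient * energy r N := by
  have h := sum_char_mul_reso_sq (N := N) hr 1
  simp only [Nat.cast_one, map_one, one_mul, ← Complex.ofReal_sum, Complex.ofReal_inj] at h
  rw [h, congrSum, energy]
  refine congrArg _ (sum_congr rfl fun m hm => ?_)
  rw [Nat.cast_one, one_mul, sum_congr rfl (g := fun n => if n = m then r m * r n else 0)
    fun n hn => if_congr ?_ rfl rfl, sum_ite_eq', if_pos hm, sq]
  rw [mem_Icc] at hm hn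
  rw [ZMod.natCast_eq_natCast_iff', Nat.mod_eq_of_lt (show n < q by omega),
    Nat.mod_eq_of_lt (show m < q by omega)]

/-- The same without the trivial character. -/
theorem sum_ne_one_char_mul_reso_sq (hr : ∀ n, r n ≠ 0 → n.Coprime q) (k : ℕ) :
    ∑ χ ∈ univ.erase (1 : DirichletCharacter ℂ q),
        χ (k : ZMod q) * ((‖charReso r N χ‖ ^ 2 : ℝ) : ℂ) =
      ((q.totient * congrSum r N q k - unitInd q k * (∑ n ∈ Icc 1 N, r n) ^ 2 : ℝ) : ℂ) := by
  rw [sum_erase_eq_sub (mem_univ _), sum_char_mul_reso_sq hr]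
  have hone : charReso r N (1 : DirichletCharacter ℂ q) = ((∑ n ∈ Icc 1 N, r n : ℝ) : ℂ) := by
    rw [charReso, Complex.ofReal_sum]
    refine sum_congr rfl fun n _ => ?_
    rcases eq_or_ne (r n) 0 with hn | hn
    · simp [hn]
    · rw [MulChar.one_apply ((ZMod.isUnit_iff_coprime n q).2 (hr n hn)), mul_one]
  have hk : (1 : DirichletCharacter ℂ q) (k : ZMod q) = ((unitInd q k : ℝ) : ℂ) := by
    unfold unitInd
    split_ifs with h
    · rw [MulChar.one_apply ((ZMod.isUnit_iff_coprime k q).2 h), Complex.ofReal_one]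
    · rw [MulChar.map_nonunit _ (fun h' => h ((ZMod.isUnit_iff_coprime k q).1 h')),
        Complex.ofReal_zero]
  rw [hone, hk, Complex.norm_real, Real.norm_eq_abs, sq_abs]
  push_cast
  ring

theorem charSum_natCast_mod {χ : DirichletCharacter ℂ q} (hχ : χ ≠ 1) (j : ℕ) :
    charSum χ j = charSum χ (j % q : ℕ) := by
  have hstep : ∀ i : ℕ, charSum χ (i + q : ℕ) = charSum χ i := fun i => by
    induction i with
    | zero =>
      simp only [charSum, Nat.floor_natCast, Nat.zero_add, Icc_eq_empty_of_lt zero_lt_one,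
        sum_empty]
      rw [← Siegel.sum_period hχ, range_eq_Ico,
        sum_Ico_add' (fun k : ℕ => χ (k : ZMod q)) 0 q 1]
      rfl
    | succ i ih =>
      simp only [charSum, Nat.floor_natCast] at ih ⊢
      rw [show i + 1 + q = (i + q) + 1 by omega, sum_Icc_succ_top (by omega), ih,
        sum_Icc_succ_top (by omega)]
      simp
  conv_lhs => rw [← Nat.mod_add_div j q]
  induction j / q with
  | zero => simp
  | succ d ih => rw [Nat.mul_succ, ← add_assoc, hstep, ih]

/-- On the average the partial sums are `O (φ(q))`. -/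
theorem norm_sum_charSum_le (hr : ∀ n, r n ≠ 0 → n.Coprime q) (h0 : ∀ n, 0 ≤ r n) (t : ℝ) :
    ‖∑ χ ∈ univ.erase (1 : DirichletCharacter ℂ q),
        charSum χ t * ((‖charReso r N χ‖ ^ 2 : ℝ) : ℂ)‖ ≤
      q.totient * (∑ n ∈ Icc 1 N, r n) ^ 2 := by
  classical
  obtain ⟨j, hj, hjq⟩ : ∃ j, j = ⌊t⌋₊ % q ∧ j < q :=
    ⟨_, rfl, Nat.mod_lt _ (NeZero.pos q)⟩
  have he : ∀ χ ∈ univ.erase (1 : DirichletCharacter ℂ q),
      charSum χ t * ((‖charReso r N χ‖ ^ 2 : ℝ) : ℂ) =
        ∑ k ∈ Icc 1 j, χ (k : ZMod q) * ((‖charReso r N χ‖ ^ 2 : ℝ) : ℂ) := fun χ hχ => by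
    rw [← sum_mul]
    congr 1
    have h := charSum_natCast_mod (ne_of_mem_erase hχ) ⌊t⌋₊
    simp only [charSum, Nat.floor_natCast, ← hj] at h ⊢
    exact h
  rw [sum_congr rfl he, sum_comm, sum_congr rfl fun k _ => sum_ne_one_char_mul_reso_sq hr k,
    ← Complex.ofReal_sum, Complex.norm_real, Real.norm_eq_abs, sum_sub_distrib, ← mul_sum,
    ← sum_mul, abs_le]
  have hA : ∑ k ∈ Icc 1 j, congrSum r N q k ≤ (∑ n ∈ Icc 1 N, r n) ^ 2 := by
    simp only [congrSum]
    rw [sum_comm, sq, sum_mul_sum]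
    refine sum_le_sum fun m _ => ?_
    rw [sum_comm]
    refine sum_le_sum fun n _ => ?_
    rw [← sum_filter]
    rcases eq_or_ne (r m) 0 with hm | hm
    · simp [hm]
    · refine (sum_le_card_nsmul _ _ _ fun _ _ => le_rfl).trans ?_
      rw [nsmul_eq_mul]
      refine mul_le_of_le_one_left (mul_nonneg (h0 m) (h0 n)) (Nat.cast_le_one.2
        (card_le_one.2 fun a ha b hb => ?_))
      rw [mem_filter, mem_Icc] at ha hb
      have h := ((ZMod.isUnit_iff_coprime m q).2 (hr m hm)).mul_left_inj.1 (ha.2.symm.trans hb.2)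
      rw [ZMod.natCast_eq_natCast_iff', Nat.mod_eq_of_lt (show a < q by omega),
        Nat.mod_eq_of_lt (show b < q by omega)] at h
      exact h
  have hP : ∑ k ∈ Icc 1 j, unitInd q k ≤ (q.totient : ℝ) := by
    simp only [unitInd]
    rw [sum_boole, Nat.cast_le, Nat.totient_eq_card_coprime]
    refine card_le_card fun k hk => ?_
    rw [mem_filter, mem_Icc] at hk
    rw [mem_filter, mem_range]
    exact ⟨by omega, hk.2.symm⟩
  have hA0 : 0 ≤ ∑ k ∈ Icc 1 j, congrSum r N q k := sum_nonneg fun k _ => congrSum_nonneg h0 k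
  have hP0 : 0 ≤ ∑ k ∈ Icc 1 j, unitInd q k := sum_nonneg fun k _ => by
    unfold unitInd; split_ifs <;> norm_num
  have hφ : (0 : ℝ) ≤ q.totient := Nat.cast_nonneg _
  constructor <;> nlinarith [sq_nonneg (∑ n ∈ Icc 1 N, r n)]

theorem lfunction_half {χ : DirichletCharacter ℂ q} (hχ : χ ≠ 1) :
    LFunction χ (1 / 2) = ∑ k ∈ Icc 1 q, ((1 / √(k : ℝ) : ℝ) : ℂ) * χ (k : ZMod q) +
      (1 / 2) * ∫ t in Set.Ioi (q : ℝ), charSum χ t * (t : ℂ) ^ (-((1 / 2 : ℂ) + 1)) := by
  rw [SiegelWalfisz.lfunction_truncated hχ (by norm_num) (NeZero.one_le (n := q))]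
  have h : charSum χ (q : ℝ) = 0 := by
    rw [charSum_natCast_mod hχ q, Nat.mod_self]
    simp [charSum]
  rw [h, zero_mul, sub_zero]
  congr 1
  refine sum_congr rfl fun k _ => ?_
  rw [mul_comm, Complex.cpow_neg, Real.sqrt_eq_rpow, Complex.ofReal_div, Complex.ofReal_one,
    Complex.ofReal_cpow (Nat.cast_nonneg k), one_div]
  push_cast
  simp [one_div]

/-- **The resonance inequality mod `q`**, explicit. -/
theorem charMainSum_le (hr : ∀ n, r n ≠ 0 → n.Coprime q) (h0 : ∀ n, 0 ≤ r n) (hN : N < q) {V : ℝ}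
    (hV : ∀ χ : DirichletCharacter ℂ q, χ ≠ 1 → ‖LFunction χ (1 / 2)‖ ≤ V) (hV0 : 0 ≤ V) :
    mainSum r N ≤ (V + 3 * √(q : ℝ) * N / q.totient) * energy r N := by
  classical
  obtain ⟨F, hF⟩ : ∃ F : DirichletCharacter ℂ q → ℂ,
      F = fun χ => ((‖charReso r N χ‖ ^ 2 : ℝ) : ℂ) := ⟨_, rfl⟩
  obtain ⟨E, hE⟩ : ∃ E, E = univ.erase (1 : DirichletCharacter ℂ q) := ⟨_, rfl⟩
  obtain ⟨Q, hQ⟩ : ∃ Q, Q = (∑ n ∈ Icc 1 N, r n) ^ 2 := ⟨_, rfl⟩
  have hQ0 : 0 ≤ Q := hQ ▸ sq_nonneg _
  have hQE : Q ≤ N * energy r N := hQ ▸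
    (le_of_eq (by simp only [abs_of_nonneg (h0 _)])).trans (sum_abs_sq_le r N)
  have hφ : (0 : ℝ) < q.totient := Nat.cast_pos.2 (Nat.totient_pos.2 (NeZero.pos q))
  have hsq : (0 : ℝ) < √(q : ℝ) := Real.sqrt_pos.2 (Nat.cast_pos.2 (NeZero.pos q))
  -- the head
  obtain ⟨D, hD⟩ : ∃ D : ℝ, D = ∑ k ∈ Icc 1 q, congrSum r N q k / √(k : ℝ) := ⟨_, rfl⟩
  obtain ⟨W, hW⟩ : ∃ W : ℝ, W = ∑ k ∈ Icc 1 q, unitInd q k / √(k : ℝ) := ⟨_, rfl⟩
  have hDmain : mainSum r N ≤ D := by
    rw [hD, mainSum]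
    refine (sum_le_sum fun k hk => ?_).trans (sum_le_sum_of_subset_of_nonneg
      (Icc_subset_Icc_right hN.le) fun k _ _ => div_nonneg (congrSum_nonneg h0 k)
        (Real.sqrt_nonneg _))
    rw [← sum_div]
    refine div_le_div_of_nonneg_right ?_ (Real.sqrt_nonneg _)
    refine (sum_le_sum fun m hm => ?_).trans (sum_le_sum_of_subset_of_nonneg
      (Icc_subset_Icc_right (Nat.div_le_self _ _)) fun m _ _ => sum_nonneg fun n _ => by
        split_ifs
        exacts [mul_nonneg (h0 m) (h0 n), le_rfl])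
    rw [mem_Icc] at hk hm
    have hkm : k * m ∈ Icc 1 N := mem_Icc.2 ⟨Nat.mul_pos hk.1 hm.1, by
      rw [mul_comm]; exact (Nat.le_div_iff_mul_le hk.1).1 hm.2⟩
    refine le_trans (le_of_eq ?_) (single_le_sum (fun n _ => ?_) hkm)
    · rw [if_pos (by push_cast; rfl)]
    · split_ifs
      exacts [mul_nonneg (h0 m) (h0 n), le_rfl]
  have hWle : W ≤ 2 * √(q : ℝ) := by
    rw [hW]
    refine le_trans (sum_le_sum fun k _ => ?_) (sum_inv_sqrt_le q)
    refine div_le_div_of_nonneg_right ?_ (Real.sqrt_nonneg _)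
    unfold unitInd; split_ifs <;> norm_num
  have hhead : ∑ χ ∈ E, (∑ k ∈ Icc 1 q, ((1 / √(k : ℝ) : ℝ) : ℂ) * χ (k : ZMod q)) * F χ =
      ((q.totient * D - W * Q : ℝ) : ℂ) := by
    rw [hF, hE, hD, hW, hQ]
    simp only [sum_mul, mul_assoc]
    rw [sum_comm, sum_congr rfl fun k _ => by
      rw [← mul_sum, sum_ne_one_char_mul_reso_sq hr k, ← Complex.ofReal_mul],
      ← Complex.ofReal_sum, mul_sum, ← sum_sub_distrib]
    congr 1
    exact sum_congr rfl fun k _ => by ring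
  -- the tail
  have htail : ‖∑ χ ∈ E, ((1 / 2 : ℂ) *
      ∫ t in Set.Ioi (q : ℝ), charSum χ t * (t : ℂ) ^ (-((1 / 2 : ℂ) + 1))) * F χ‖ ≤
      q.totient * Q / √(q : ℝ) := by
    simp only [mul_assoc, ← mul_sum, ← integral_mul_const]
    have hint : ∀ χ ∈ E, Integrable (fun t : ℝ =>
        charSum χ t * (t : ℂ) ^ (-((1 / 2 : ℂ) + 1)) * F χ)
        (volume.restrict (Set.Ioi (q : ℝ))) := fun χ hχ =>
      ((Siegel.integrable_integrand (ne_of_mem_erase (hE ▸ hχ)) (by norm_num)).mono_set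
        (Set.Ioi_subset_Ioi (Nat.one_le_cast.2 NeZero.one_le))).mul_const _
    simp only [mul_assoc] at hint
    rw [← integral_finsetSum _ hint, norm_mul]
    have hq0 : (0 : ℝ) < q := Nat.cast_pos.2 (NeZero.pos q)
    refine (mul_le_mul_of_nonneg_left (norm_integral_le_of_norm_le
      ((integrableOn_Ioi_rpow_of_lt (a := -(3 / 2 : ℝ)) (by norm_num) hq0).const_mul
        (q.totient * Q)) ?_) (norm_nonneg _)).trans (le_of_eq ?_)
    · filter_upwards [ae_restrict_mem measurableSet_Ioi] with t ht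
      have ht0 : 0 < t := hq0.trans ht
      rw [sum_congr rfl fun χ _ => mul_left_comm (charSum χ t) _ (F χ), ← mul_sum, norm_mul,
        Complex.norm_cpow_eq_rpow_re_of_pos ht0, mul_comm]
      refine mul_le_mul ?_ (le_of_eq (by norm_num)) (Real.rpow_nonneg ht0.le _) (by positivity)
      rw [hE, hF, hQ]
      exact norm_sum_charSum_le hr h0 t
    · rw [integral_const_mul, integral_Ioi_rpow_of_lt (by norm_num) hq0,
        show (-(3 / 2 : ℝ) + 1) = -(1 / 2) by norm_num, Real.rpow_neg hq0.le,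
        ← Real.sqrt_eq_rpow]
      norm_num
      ring
  -- against the largest value
  have hsum : ‖∑ χ ∈ E, LFunction χ (1 / 2) * F χ‖ ≤ V * (q.totient * energy r N) := by
    refine (norm_sum_le_of_le (n := fun χ => V * ‖charReso r N χ‖ ^ 2) _ fun χ hχ => ?_).trans ?_
    · rw [norm_mul, hF, Complex.norm_real, Real.norm_of_nonneg (sq_nonneg _)]
      exact mul_le_mul_of_nonneg_right (hV χ (ne_of_mem_erase (hE ▸ hχ))) (sq_nonneg _)
    · rw [← mul_sum, ← sum_norm_reso_sq hr hN]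
      exact mul_le_mul_of_nonneg_left (sum_le_sum_of_subset_of_nonneg (subset_univ _)
        fun _ _ _ => sq_nonneg _) hV0
  rw [sum_congr rfl fun χ hχ => by
    rw [lfunction_half (ne_of_mem_erase (hE ▸ hχ)), add_mul], sum_add_distrib, hhead] at hsum
  have hmain : q.totient * D - W * Q ≤
      V * (q.totient * energy r N) + q.totient * Q / √(q : ℝ) := by
    refine (le_abs_self _).trans ?_
    rw [← Real.norm_eq_abs, ← Complex.norm_real]
    exact (norm_le_norm_add_norm_sub' _ _).trans (add_le_add hsum (by simpa using htail))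
  -- collect
  have hφq : (q.totient : ℝ) / √(q : ℝ) ≤ √(q : ℝ) := by
    rw [div_le_iff₀ hsq, Real.mul_self_sqrt (Nat.cast_nonneg q)]
    exact Nat.cast_le.2 (Nat.totient_le q)
  refine hDmain.trans (le_of_mul_le_mul_left ?_ hφ)
  have h1 : W * Q ≤ 2 * √(q : ℝ) * (N * energy r N) :=
    mul_le_mul hWle hQE hQ0 (by positivity)
  have h2 : q.totient * Q / √(q : ℝ) ≤ √(q : ℝ) * (N * energy r N) := by
    rw [mul_div_right_comm]
    exact mul_le_mul hφq hQE hQ0 hsq.le
  rw [mul_comm (q.totient : ℝ) (_ * energy r N), add_mul, add_mul,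
    show 3 * √(q : ℝ) * N / q.totient * energy r N * q.totient =
      3 * √(q : ℝ) * N * energy r N by field_simp]
  linarith

/-- **The resonance inequality mod `q`.** -/
theorem exists_charMainSum_le (hq : 3 ≤ q) (hr : ∀ n, r n ≠ 0 → n.Coprime q)
    (h0 : ∀ n, 0 ≤ r n) (hN : N < q) : ∃ χ : DirichletCharacter ℂ q, χ ≠ 1 ∧
      mainSum r N ≤ (‖LFunction χ (1 / 2)‖ + 3 * √(q : ℝ) * N / q.totient) * energy r N := by
  classical
  have hne : (univ.erase (1 : DirichletCharacter ℂ q)).Nonempty := by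
    rw [← card_pos, card_erase_of_mem (mem_univ _), card_univ, ← Nat.card_eq_fintype_card,
      DirichletCharacter.card_eq_totient_of_hasEnoughRootsOfUnity ℂ q]
    obtain ⟨m, hm⟩ := Nat.totient_even (show 2 < q by omega)
    have := Nat.totient_pos.2 (show 0 < q by omega)
    omega
  obtain ⟨χ, hχ, hmax⟩ := exists_max_image _ (fun χ : DirichletCharacter ℂ q =>
    ‖LFunction χ (1 / 2)‖) hne
  exact ⟨χ, ne_of_mem_erase hχ, charMainSum_le hr h0 hN
    (fun ψ hψ => hmax ψ (mem_erase.2 ⟨hψ, mem_univ _⟩)) (norm_nonneg _)⟩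

end FA.Resonance
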