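import Fermat.Agent.Resonance.Inequality

/-!
# A multiplicative resonator

For `r` multiplicative on the squarefree products of a set of primes, the sums to be compared are
Euler products, up to the terms beyond `N`, which Rankin's trick controls.
-/

set_option autoImplicit false

noncomputable section

namespace FA.Resonance

open Finset
open scoped Real

variable (P : Finset ℕ)

theorem sum_pairs (u v : ℕ → ℝ) :
    ∑ a ∈ P.powerset, ∑ b ∈ (P \ a).powerset, (∏ p ∈ a, u p) * ∏ p ∈ b, v p =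
      ∏ p ∈ P, (1 + u p + v p) := by
  rw [prod_congr rfl (g := fun p => u p + (1 + v p)) fun p _ => by ring, prod_add]
  exact sum_congr rfl fun a _ => by rw [← mul_sum, prod_one_add]

/-- The product of `g p`, `p ∣ n`, for `n` squarefree with prime factors in `P`, else `0`. -/
def coeff (g : ℕ → ℝ) (n : ℕ) : ℝ :=
  if Squarefree n ∧ n.primeFactors ⊆ P then ∏ p ∈ n.primeFactors, g p else 0

theorem coeff_nonneg {g : ℕ → ℝ} (hg : ∀ p, 0 ≤ g p) (n : ℕ) : 0 ≤ coeff P g n := by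
  unfold coeff
  split_ifs
  · exact prod_nonneg fun p _ => hg p
  · exact le_rfl

theorem coeff_prod (hP : ∀ p ∈ P, p.Prime) (g : ℕ → ℝ) {a : Finset ℕ} (ha : a ⊆ P) :
    coeff P g (∏ p ∈ a, p) = ∏ p ∈ a, g p := by
  have hpf : (∏ p ∈ a, p).primeFactors = a := Nat.primeFactors_prod fun p hp => hP p (ha hp)
  have hsq : Squarefree (∏ p ∈ a, p) := by
    exact Finset.squarefree_prod_of_pairwise_isCoprime (fun p hp q hq hne =>
      Nat.coprime_iff_isRelPrime.1 ((Nat.coprime_primes (hP p (ha hp)) (hP q (ha hq))).2 hne))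
      fun p hp => (hP p (ha hp)).squarefree
  rw [coeff, hpf, if_pos ⟨hsq, ha⟩]

theorem energy_coeff_le (g : ℕ → ℝ) (N : ℕ) :
    energy (coeff P g) N ≤ ∏ p ∈ P, (1 + g p ^ 2) := by
  rw [prod_one_add, energy, ← sum_filter_of_ne (p := fun n => Squarefree n ∧ n.primeFactors ⊆ P)
    fun n _ hn => by by_contra h; exact hn (by rw [coeff, if_neg h, zero_pow two_ne_zero])]
  refine le_trans (le_of_eq ?_) (sum_le_sum_of_subset_of_nonneg
    (s := ((Icc 1 N).filter fun n => Squarefree n ∧ n.primeFactors ⊆ P).image Nat.primeFactors)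
    (fun a ha => ?_) fun a _ _ => prod_nonneg fun p _ => sq_nonneg _)
  · rw [sum_image fun m hm n hn h => ?_]
    · refine sum_congr rfl fun n hn => ?_
      rw [coeff, if_pos (mem_filter.1 hn).2, prod_pow]
    · rw [← Nat.prod_primeFactors_of_squarefree (mem_filter.1 hm).2.1, h,
        Nat.prod_primeFactors_of_squarefree (mem_filter.1 hn).2.1]
  · obtain ⟨n, hn, rfl⟩ := mem_image.1 ha
    exact mem_powerset.2 (mem_filter.1 hn).2.2

theorem energy_coeff_pos {g : ℕ → ℝ} {N : ℕ} (hN : 1 ≤ N) : 0 < energy (coeff P g) N := by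
  refine lt_of_lt_of_le ?_ (single_le_sum (fun n _ => sq_nonneg _) (mem_Icc.2 ⟨le_rfl, hN⟩))
  simp [coeff]

/-- **Rankin's trick.** -/
theorem le_mainSum_coeff (hP : ∀ p ∈ P, p.Prime) {g : ℕ → ℝ} (hg : ∀ p, 0 ≤ g p) {N : ℕ}
    (hN : 1 ≤ N) {α : ℝ} (hα : 0 ≤ α) :
    ∏ p ∈ P, (1 + g p / √(p : ℝ) + g p ^ 2) - ((N : ℝ) ^ α)⁻¹ *
        ∏ p ∈ P, (1 + (p : ℝ) ^ α * (g p / √(p : ℝ)) + (p : ℝ) ^ α * g p ^ 2) ≤
      mainSum (coeff P g) N := by
  classical
  obtain ⟨T, hT⟩ : ∃ T, T = P.powerset.sigma fun a => (P \ a).powerset := ⟨_, rfl⟩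
  obtain ⟨u, hu⟩ : ∃ u : ℕ → ℝ, u = fun p => g p / √(p : ℝ) := ⟨_, rfl⟩
  obtain ⟨v, hv⟩ : ∃ v : ℕ → ℝ, v = fun p => g p ^ 2 := ⟨_, rfl⟩
  obtain ⟨F, hF⟩ : ∃ F : (Σ _ : Finset ℕ, Finset ℕ) → ℝ,
      F = fun x => (∏ p ∈ x.1, u p) * ∏ p ∈ x.2, v p := ⟨_, rfl⟩
  obtain ⟨n, hn⟩ : ∃ n : (Σ _ : Finset ℕ, Finset ℕ) → ℕ,
      n = fun x => (∏ p ∈ x.1, p) * ∏ p ∈ x.2, p := ⟨_, rfl⟩
  have hmem : ∀ x ∈ T, x.1 ⊆ P ∧ x.2 ⊆ P ∧ Disjoint x.1 x.2 := fun x hx => by
    rw [hT, mem_sigma, mem_powerset, mem_powerset] at hx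
    exact ⟨hx.1, hx.2.trans sdiff_subset,
      disjoint_left.2 fun p h1 h2 => (Finset.mem_sdiff.1 (hx.2 h2)).2 h1⟩
  have hF0 : ∀ x, 0 ≤ F x := fun x => hF ▸ hu ▸ hv ▸ mul_nonneg
    (prod_nonneg fun p _ => div_nonneg (hg p) (Real.sqrt_nonneg _))
    (prod_nonneg fun p _ => sq_nonneg _)
  have hN0 : (0 : ℝ) < N := Nat.cast_pos.2 hN
  -- the terms up to `N`
  have hsmall : ∑ x ∈ T.filter (fun x => n x ≤ N), F x ≤ mainSum (coeff P g) N := by
    rw [mainSum, sum_sigma']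
    have hinj : Set.InjOn (fun x : Σ _ : Finset ℕ, Finset ℕ =>
        (⟨∏ p ∈ x.1, p, ∏ p ∈ x.2, p⟩ : Σ _ : ℕ, ℕ)) (T.filter fun x => n x ≤ N) := by
      intro x hx y hy h
      obtain ⟨hx1, hx2, -⟩ := hmem x (mem_filter.1 hx).1
      obtain ⟨hy1, hy2, -⟩ := hmem y (mem_filter.1 hy).1
      simp only [Sigma.mk.injEq, heq_eq_eq] at h
      refine Sigma.ext ?_ (heq_of_eq ?_)
      · rw [← Nat.primeFactors_prod fun p hp => hP p (hx1 hp), h.1,
          Nat.primeFactors_prod fun p hp => hP p (hy1 hp)]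
      · rw [← Nat.primeFactors_prod fun p hp => hP p (hx2 hp), h.2,
          Nat.primeFactors_prod fun p hp => hP p (hy2 hp)]
    refine le_trans (le_of_eq ?_) (sum_le_sum_of_subset_of_nonneg
      (s := (T.filter fun x => n x ≤ N).image fun x =>
        (⟨∏ p ∈ x.1, p, ∏ p ∈ x.2, p⟩ : Σ _ : ℕ, ℕ)) ?_ fun y _ _ => div_nonneg
      (mul_nonneg (coeff_nonneg P hg _) (coeff_nonneg P hg _)) (Real.sqrt_nonneg _))
    · rw [sum_image hinj]
      refine sum_congr rfl fun x hx => ?_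
      obtain ⟨hx1, hx2, hd⟩ := hmem x (mem_filter.1 hx).1
      have hsqrt : √(((∏ p ∈ x.1, p : ℕ)) : ℝ) = ∏ p ∈ x.1, √(p : ℝ) := by
        push_cast
        simp only [Real.sqrt_eq_rpow]
        exact (Real.finsetProd_rpow _ _ (fun p _ => Nat.cast_nonneg p) _).symm
      rw [← prod_union hd, coeff_prod P hP g hx2, coeff_prod P hP g (union_subset hx1 hx2),
        prod_union hd, hsqrt, hF, hu, hv]
      simp only [prod_div_distrib, prod_pow]
      ring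
    · intro y hy
      obtain ⟨x, hx, rfl⟩ := mem_image.1 hy
      obtain ⟨hx1, hx2, -⟩ := hmem x (mem_filter.1 hx).1
      have h1 : 1 ≤ ∏ p ∈ x.1, p := one_le_prod' fun p hp => (hP p (hx1 hp)).one_le
      have h2 : 1 ≤ ∏ p ∈ x.2, p := one_le_prod' fun p hp => (hP p (hx2 hp)).one_le
      have h3 := (mem_filter.1 hx).2
      rw [hn] at h3
      simp only [mem_sigma, mem_Icc]
      exact ⟨⟨h1, (Nat.le_mul_of_pos_right _ h2).trans h3⟩, h2,
        (Nat.le_div_iff_mul_le h1).2 (by rwa [mul_comm])⟩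
  refine le_trans ?_ hsmall
  -- the rest
  have hmain : ∏ p ∈ P, (1 + g p / √(p : ℝ) + g p ^ 2) = ∑ x ∈ T, F x := by
    rw [hT, sum_sigma, hF]
    simp only
    rw [sum_pairs P u v, hu, hv]
  have hrest : ∏ p ∈ P, (1 + (p : ℝ) ^ α * (g p / √(p : ℝ)) + (p : ℝ) ^ α * g p ^ 2) =
      ∑ x ∈ T, (n x : ℝ) ^ α * F x := by
    rw [← sum_pairs P (fun p : ℕ => (p : ℝ) ^ α * (g p / √(p : ℝ)))
      (fun p : ℕ => (p : ℝ) ^ α * g p ^ 2), hT, sum_sigma, hn, hF, hu, hv]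
    refine sum_congr rfl fun a _ => sum_congr rfl fun b _ => ?_
    simp only [prod_mul_distrib]
    rw [Nat.cast_mul, Real.mul_rpow (Nat.cast_nonneg _) (Nat.cast_nonneg _), Nat.cast_prod,
      Nat.cast_prod, ← Real.finsetProd_rpow _ _ fun p _ => Nat.cast_nonneg p,
      ← Real.finsetProd_rpow _ _ fun p _ => Nat.cast_nonneg p]
    ring
  rw [hmain, hrest, mul_sum, ← sum_sub_distrib, sum_filter]
  refine sum_le_sum fun x hx => ?_
  split_ifs with h
  · have : 0 ≤ ((N : ℝ) ^ α)⁻¹ * ((n x : ℝ) ^ α * F x) := by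
      have := hF0 x
      positivity
    linarith
  · have h1 : (N : ℝ) ^ α ≤ (n x : ℝ) ^ α :=
      Real.rpow_le_rpow hN0.le (Nat.cast_le.2 (not_le.1 h).le) hα
    have h2 : 1 ≤ ((N : ℝ) ^ α)⁻¹ * (n x : ℝ) ^ α := by
      rw [inv_mul_eq_div, one_le_div (Real.rpow_pos_of_pos hN0 α)]
      exact h1
    nlinarith [hF0 x]

end FA.Resonance
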