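import Fermat.Agent.Resonance.Main
import Fermat.Agent.MertensThird.Extreme

/-!
# Littlewood's theorem on large values of `ζ (1 + it)`

With `r` the indicator of the divisors of `D = (X#)^b` the ratio of the two sums is the mean of
`σ n / n` over `n ∣ D`, at least `(1 - O (log X / b)) / ∏_{p ≤ X} (1 - 1/p)`, so by Mertens
`(e^γ - o (1)) log X`; `X = log T / (log log T)^3`, `b = (log log T)^2` keep `D ≤ T ^ (1/2)`.
-/

set_option autoImplicit false

noncomputable section

namespace FA.Resonance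

open Finset Filter Real MeasureTheory
open FA.ErdosKac (primesUpTo mem_primesUpTo)
open FA.MertensThird (primeFactors_primorial_pow one_sub_sum_le_prod_one_sub
  one_sub_inv_prime_nonneg)
open scoped Topology ArithmeticFunction.sigma ArithmeticFunction.zeta

/-- `σ n / n`. -/
def sigmaOverId : ArithmeticFunction ℝ :=
  (↑(σ 1) : ArithmeticFunction ℝ).pdiv ↑ArithmeticFunction.id

theorem sigmaOverId_apply (n : ℕ) :
    sigmaOverId n = (∑ d ∈ n.divisors, (d : ℝ)) / n := by
  rw [sigmaOverId, ArithmeticFunction.pdiv_apply, ArithmeticFunction.natCoe_apply,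
    ArithmeticFunction.natCoe_apply, ArithmeticFunction.sigma_one_apply,
    ArithmeticFunction.id_apply, Nat.cast_sum]

theorem sigmaOverId_eq_sum_inv (n : ℕ) : sigmaOverId n = ∑ k ∈ n.divisors, 1 / (k : ℝ) := by
  rcases n.eq_zero_or_pos with rfl | hn
  · simp
  rw [sigmaOverId_apply, sum_div, ← Nat.sum_div_divisors n fun k => 1 / (k : ℝ)]
  refine sum_congr rfl fun k hk => ?_
  have hk0 : (k : ℝ) ≠ 0 := Nat.cast_ne_zero.2 (Nat.pos_of_mem_divisors hk).ne'
  rw [Nat.cast_div (Nat.dvd_of_mem_divisors hk) hk0, one_div_div]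

theorem isMultiplicative_sigmaOverId : sigmaOverId.IsMultiplicative :=
  ArithmeticFunction.isMultiplicative_sigma.natCast.pdiv
    ArithmeticFunction.isMultiplicative_id.natCast

/-- The indicator of the divisors of `D`. -/
def divInd (D n : ℕ) : ℝ := if n ∣ D then 1 else 0

theorem energy_divInd {D : ℕ} (hD : D ≠ 0) : energy (divInd D) D = (#D.divisors : ℝ) := by
  rw [energy, card_eq_sum_ones, Nat.cast_sum, Nat.cast_one,
    show D.divisors = (Icc 1 D).filter (· ∣ D) by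
      ext n
      simp only [Nat.mem_divisors, mem_filter, mem_Icc]
      exact ⟨fun h => ⟨⟨Nat.pos_of_dvd_of_pos h.1 (Nat.pos_of_ne_zero hD),
        Nat.le_of_dvd (Nat.pos_of_ne_zero hD) h.1⟩, h.1⟩, fun h => ⟨h.2, hD⟩⟩,
    sum_filter]
  refine sum_congr rfl fun n _ => ?_
  unfold divInd
  split_ifs <;> norm_num

theorem sum_sigmaOverId_le_diagSum {D : ℕ} (hD : D ≠ 0) :
    ∑ n ∈ D.divisors, sigmaOverId n ≤ diagSum (fun k => 1 / (k : ℝ)) (divInd D) D := by
  classical
  simp only [sigmaOverId_eq_sum_inv, diagSum, sum_sigma']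
  have hinj : Set.InjOn (fun x : Σ _ : ℕ, ℕ => (⟨x.2, x.1 / x.2⟩ : Σ _ : ℕ, ℕ))
      (D.divisors.sigma fun n => n.divisors) := by
    intro x hx y hy h
    simp only [coe_sigma, Set.mem_sigma_iff, mem_coe, Nat.mem_divisors] at hx hy
    simp only [Sigma.mk.injEq, heq_eq_eq] at h
    refine Sigma.ext ?_ (heq_of_eq h.1)
    rw [← Nat.div_mul_cancel hx.2.1, h.2, h.1, Nat.div_mul_cancel hy.2.1]
  refine le_trans (le_of_eq ?_) (sum_le_sum_of_subset_of_nonneg
    (s := (D.divisors.sigma fun n => n.divisors).image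
      fun x : Σ _ : ℕ, ℕ => (⟨x.2, x.1 / x.2⟩ : Σ _ : ℕ, ℕ)) ?_ fun x _ _ => ?_)
  · rw [sum_image hinj]
    refine sum_congr rfl fun x hx => ?_
    simp only [mem_sigma, Nat.mem_divisors] at hx
    rw [divInd, divInd, if_pos ((Nat.div_dvd_of_dvd hx.2.1).trans hx.1.1),
      if_pos (by rw [Nat.mul_div_cancel' hx.2.1]; exact hx.1.1)]
    ring
  · intro y hy
    obtain ⟨⟨n, k⟩, hx, rfl⟩ := mem_image.1 hy
    simp only [mem_sigma, Nat.mem_divisors, mem_Icc] at hx ⊢
    have hn0 : 0 < n := Nat.pos_of_ne_zero hx.2.2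
    have hk0 : 0 < k := Nat.pos_of_dvd_of_pos hx.2.1 hn0
    have hnD : n ≤ D := Nat.le_of_dvd (Nat.pos_of_ne_zero hD) hx.1.1
    exact ⟨⟨hk0, (Nat.le_of_dvd hn0 hx.2.1).trans hnD⟩,
      Nat.div_pos (Nat.le_of_dvd hn0 hx.2.1) hk0, Nat.div_le_div_right hnD⟩
  · unfold divInd
    split_ifs <;> positivity

/-- The mean of `σ n / n` over the divisors of `(X#)^b`. -/
theorem primorial_pow_mean_ge (X : ℕ) {b : ℕ} (hb : b ≠ 0) :
    (1 - 2 / ((b : ℝ) + 1) * ∑ p ∈ primesUpTo X, (p : ℝ)⁻¹) *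
        (#(primorial X ^ b).divisors : ℝ) ≤
      (∏ p ∈ primesUpTo X, (1 - (p : ℝ)⁻¹)) *
        ∑ n ∈ (primorial X ^ b).divisors, sigmaOverId n := by
  have hD : primorial X ^ b ≠ 0 := pow_ne_zero b (primorial_ne_zero X)
  have hfac : ∀ p ∈ primesUpTo X, (primorial X ^ b).factorization p = b := fun p hp => by
    rw [Nat.factorization_pow, Finsupp.smul_apply, smul_eq_mul,
      Nat.factorization_eq_one_of_squarefree (squarefree_primorial X) (mem_primesUpTo.1 hp).1
        (Nat.dvd_of_mem_primeFactors (n := primorial X) (by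
          rwa [← Nat.primeFactors_pow (primorial X) hb, primeFactors_primorial_pow X hb])),
      mul_one]
  have hcard : (#(primorial X ^ b).divisors : ℝ) = ∏ _p ∈ primesUpTo X, ((b : ℝ) + 1) := by
    rw [Nat.card_divisors hD, primeFactors_primorial_pow X hb, Nat.cast_prod]
    exact prod_congr rfl fun p hp => by rw [hfac p hp]; push_cast; rfl
  have hsum : ∑ n ∈ (primorial X ^ b).divisors, sigmaOverId n =
      ∏ p ∈ primesUpTo X, ∑ i ∈ range (b + 1), sigmaOverId (p ^ i) := by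
    rw [← ArithmeticFunction.coe_mul_zeta_apply,
      (isMultiplicative_sigmaOverId.mul
        ArithmeticFunction.isMultiplicative_zeta.natCast).multiplicative_factorization _ hD,
      Finsupp.prod, Nat.support_factorization, primeFactors_primorial_pow X hb]
    refine prod_congr rfl fun p hp => ?_
    rw [hfac p hp, ArithmeticFunction.coe_mul_zeta_apply,
      Nat.sum_divisors_prime_pow (mem_primesUpTo.1 hp).1]
  rw [hcard, hsum, ← prod_mul_distrib]
  have hterm : ∀ p ∈ primesUpTo X, (1 - 2 / ((b : ℝ) + 1) * (p : ℝ)⁻¹) * ((b : ℝ) + 1) ≤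
      (1 - (p : ℝ)⁻¹) * ∑ i ∈ range (b + 1), sigmaOverId (p ^ i) := by
    intro p hp
    have hp0 : (2 : ℝ) ≤ p := Nat.ofNat_le_cast.2 (mem_primesUpTo.1 hp).1.two_le
    have hpi : ∀ i, (1 - (p : ℝ)⁻¹) * sigmaOverId (p ^ i) = 1 - ((p : ℝ)⁻¹) ^ (i + 1) := by
      intro i
      rw [sigmaOverId_eq_sum_inv, Nat.sum_divisors_prime_pow (mem_primesUpTo.1 hp).1]
      simp only [Nat.cast_pow, one_div, ← inv_pow]
      rw [mul_comm, geom_sum_mul_neg]
    rw [mul_sum, sum_congr rfl fun i _ => hpi i, sum_sub_distrib, sum_const, card_range,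
      nsmul_eq_mul, mul_one, sub_mul, one_mul, mul_right_comm, div_mul_cancel₀ _ (by positivity)]
    push_cast
    have hg : ∑ i ∈ range (b + 1), ((p : ℝ)⁻¹) ^ (i + 1) ≤ 2 * (p : ℝ)⁻¹ := by
      simp only [pow_succ, ← sum_mul]
      refine mul_le_mul_of_nonneg_right (le_trans (sum_le_sum fun i _ => pow_le_pow_left₀
        (by positivity) ?_ i) (sum_geometric_two_le _)) (by positivity)
      rw [one_div]
      exact inv_anti₀ two_pos hp0
    linarith
  rcases le_or_gt 0 (1 - 2 / ((b : ℝ) + 1) * ∑ p ∈ primesUpTo X, (p : ℝ)⁻¹) with h | h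
  · have hb2 : 2 / ((b : ℝ) + 1) ≤ 1 := by
      have : (1 : ℝ) ≤ b := Nat.one_le_cast.2 (Nat.one_le_iff_ne_zero.2 hb)
      rw [div_le_one (by linarith)]
      linarith
    have h0 : ∀ p ∈ primesUpTo X, 0 ≤ 2 / ((b : ℝ) + 1) * (p : ℝ)⁻¹ ∧
        2 / ((b : ℝ) + 1) * (p : ℝ)⁻¹ ≤ 1 := fun p hp => ⟨by positivity,
      mul_le_one₀ hb2 (inv_nonneg.2 (Nat.cast_nonneg p))
        (inv_le_one_of_one_le₀ (Nat.one_le_cast.2 (mem_primesUpTo.1 hp).1.one_le))⟩
    rw [mul_sum]
    refine (mul_le_mul_of_nonneg_right (one_sub_sum_le_prod_one_sub _ (fun p hp => (h0 p hp).1)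
      fun p hp => (h0 p hp).2) (prod_nonneg fun p _ => by positivity)).trans ?_
    rw [← prod_mul_distrib]
    exact prod_le_prod (fun p hp => mul_nonneg (sub_nonneg.2 (h0 p hp).2) (by positivity)) hterm
  · exact (mul_nonpos_of_nonpos_of_nonneg h.le (prod_nonneg fun p _ => by positivity)).trans
      (prod_nonneg fun p hp => mul_nonneg
        (one_sub_inv_prime_nonneg (fun q hq => (mem_primesUpTo.1 hq).1) p hp)
        (sum_nonneg fun i _ => by rw [sigmaOverId_eq_sum_inv]; positivity))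

theorem sum_primes_inv_le (X : ℕ) : ∑ p ∈ primesUpTo X, (p : ℝ)⁻¹ ≤ 1 + log X := by
  refine le_trans ?_ (harmonic_le_one_add_log X)
  rw [harmonic_eq_sum_Icc]
  push_cast
  exact sum_le_sum_of_subset_of_nonneg (filter_subset _ _) fun n _ _ => by positivity

/-- The truncated series on the line `re s = 1`. -/
theorem norm_waveSum_one_sub_le {T t : ℝ} (hT : 3 ≤ T) (ht : t ∈ Set.Icc T (2 * T)) :
    ‖waveSum (fun k => 1 / (k : ℝ)) ⌊2 * T⌋₊ t‖ ≤ ‖riemannZeta (1 + t * Complex.I)‖ + 3 := by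
  obtain ⟨M, hM⟩ : ∃ M, M = ⌊2 * T⌋₊ := ⟨_, rfl⟩
  have hMT : 2 * T - 1 ≤ (M : ℝ) := hM ▸ (Nat.sub_one_lt_floor _).le
  have hM1 : 1 ≤ M := hM ▸ Nat.le_floor (by rw [Nat.cast_one]; linarith)
  obtain ⟨s, hs⟩ : ∃ s : ℂ, s = 1 + t * Complex.I := ⟨_, rfl⟩
  have hre : s.re = 1 := by simp [hs]
  have ht0 : 0 < t := by linarith [ht.1]
  have hs1 : s ≠ 1 := fun h => by
    have := congrArg Complex.im h
    simp [hs] at this
    linarith
  have hsum : waveSum (fun k => 1 / (k : ℝ)) M t = ∑ n ∈ Icc 1 M, 1 / (n : ℂ) ^ s := by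
    refine sum_congr rfl fun k hk => ?_
    have h0 : (k : ℂ) ≠ 0 := Nat.cast_ne_zero.2 (Nat.one_le_iff_ne_zero.1 (mem_Icc.1 hk).1)
    rw [hs, Complex.cpow_add _ _ h0, Complex.cpow_one, ← div_div,
      div_eq_mul_inv _ ((k : ℂ) ^ ((t : ℂ) * Complex.I))]
    congr 1
    · push_cast; rfl
    · rw [wave, ← Complex.cpow_neg, Complex.cpow_def_of_ne_zero h0, ← Complex.natCast_log]
      push_cast
      ring_nf
  rw [← hM, hsum, ← hs]
  have hz := ZeroFree.riemannZeta_truncated (by rw [hre]; norm_num) hs1 hM1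
  rw [show ∑ n ∈ Icc 1 M, 1 / (n : ℂ) ^ s = riemannZeta s - (M : ℂ) ^ (1 - s) / (s - 1) +
      s * ∫ u in Set.Ioi (M : ℝ), ((u - (⌊u⌋₊ : ℝ) : ℝ) : ℂ) * (u : ℂ) ^ (-(s + 1)) by
    rw [hz]; ring]
  have h1 : ‖(M : ℂ) ^ (1 - s) / (s - 1)‖ ≤ 1 := by
    rw [norm_div, Complex.norm_natCast_cpow_of_pos (by omega), hs]
    simp [abs_of_pos ht0]
    exact inv_le_one_of_one_le₀ (by linarith [ht.1])
  have hM0 : (0 : ℝ) < M := Nat.cast_pos.2 hM1
  have h2 : ‖s * ∫ u in Set.Ioi (M : ℝ), ((u - (⌊u⌋₊ : ℝ) : ℝ) : ℂ) * (u : ℂ) ^ (-(s + 1))‖ ≤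
      2 := by
    rw [norm_mul]
    have hsn : ‖s‖ ≤ 1 + 2 * T := by
      rw [hs]
      refine (norm_add_le _ _).trans ?_
      simp [abs_of_pos ht0]
      exact ht.2
    refine (mul_le_mul hsn (norm_integral_le_of_norm_le
      (integrableOn_Ioi_rpow_of_lt (a := (-2 : ℝ)) (by norm_num) hM0) ?_) (norm_nonneg _)
        (by linarith)).trans ?_
    · filter_upwards [ae_restrict_mem measurableSet_Ioi] with u hu
      refine (CycloGrowth.norm_fracIntegrand_le (s := s)
        (lt_of_le_of_lt (Nat.one_le_cast.2 hM1) hu)).trans (le_of_eq ?_)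
      rw [hre]; norm_num
    · rw [integral_Ioi_rpow_of_lt (by norm_num) hM0]
      norm_num
      rw [Real.rpow_neg_one, ← div_eq_mul_inv, div_le_iff₀ hM0]
      linarith
  refine (norm_add_le _ _).trans ?_
  linarith [norm_sub_le (riemannZeta s) ((M : ℂ) ^ (1 - s) / (s - 1))]

theorem continuous_zeta_oneLine {T : ℝ} (hT : 0 < T) :
    ContinuousOn (fun t : ℝ => riemannZeta (1 + t * Complex.I)) (Set.Icc T (2 * T)) := by
  intro t ht
  refine ContinuousAt.continuousWithinAt ?_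
  have h1 : (1 + t * Complex.I : ℂ) ≠ 1 := fun h => by
    have := congrArg Complex.im h
    simp at this
    linarith [ht.1]
  exact ContinuousAt.comp (g := riemannZeta) (differentiableAt_riemannZeta h1).continuousAt
    (continuous_const.add (Complex.continuous_ofReal.mul continuous_const)).continuousAt

/-- The parameters, with `L = log T`, `l = log L`, `X = ⌊L / l³⌋`. -/
theorem eventually_parameters {a : ℝ} (ha : a < Real.exp eulerMascheroniConstant) :
    ∀ᶠ L : ℝ in atTop, 8 ≤ log L ∧ (⌊L / log L ^ 3⌋₊ : ℝ) ≤ L / log L ^ 3 ∧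
      a * log L * ∏ p ∈ primesUpTo ⌊L / log L ^ 3⌋₊, (1 - (p : ℝ)⁻¹) ≤ 1 - 4 / log L := by
  have hX : Tendsto (fun L : ℝ => L / log L ^ 3) atTop atTop := by
    refine tendsto_atTop.2 fun B => ?_
    filter_upwards [(Real.isLittleO_pow_log_id_atTop (n := 3)).bound
      (show 0 < 1 / (|B| + 1) by positivity), eventually_gt_atTop (1 : ℝ)] with L h h1
    have h0 : 0 < log L ^ 3 := pow_pos (Real.log_pos h1) 3
    rw [id_eq, Real.norm_of_nonneg h0.le, Real.norm_of_nonneg (by linarith),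
      div_mul_eq_mul_div, one_mul, le_div_iff₀ (by positivity)] at h
    rw [le_div_iff₀ h0]
    nlinarith [le_abs_self B]
  have hlog : Tendsto (fun L : ℝ => log L / log (L / log L ^ 3)) atTop (𝓝 1) := by
    have h1 : Tendsto (fun L : ℝ => log (L / log L ^ 3) / log L) atTop (𝓝 1) := by
      have h2 : Tendsto (fun L : ℝ => log (log L) / log L) atTop (𝓝 0) :=
        Real.isLittleO_log_id_atTop.tendsto_div_nhds_zero.comp Real.tendsto_log_atTop
      have h3 := (h2.const_mul 3).const_sub 1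
      rw [mul_zero, sub_zero] at h3
      refine h3.congr' ?_
      filter_upwards [eventually_gt_atTop (1 : ℝ)] with L h1
      have hl := Real.log_pos h1
      rw [Real.log_div (by linarith) (pow_pos hl 3).ne', Real.log_pow]
      field_simp
      push_cast
      ring
    simpa [inv_div] using h1.inv₀ one_ne_zero
  have hP := MertensThird.tendsto_log_mul_prod.comp hX
  have hlim := ((hlog.mul hP).const_mul a).add
    ((Real.tendsto_log_atTop.const_div_atTop (4 : ℝ)))
  rw [one_mul, add_zero] at hlim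
  have hlt : a * Real.exp (-eulerMascheroniConstant) < 1 := by
    rw [Real.exp_neg, ← div_eq_mul_inv, div_lt_one (Real.exp_pos _)]
    exact ha
  filter_upwards [hlim.eventually (eventually_le_nhds hlt),
    Real.tendsto_log_atTop.eventually_ge_atTop 8, hX.eventually_gt_atTop 1,
    eventually_gt_atTop (1 : ℝ)] with L h hl hX1 hL1
  refine ⟨hl, Nat.floor_le (by linarith), ?_⟩
  simp only [Function.comp_apply] at h
  rw [← mul_assoc (log L / log (L / log L ^ 3)), div_mul_cancel₀ _ (Real.log_pos hX1).ne'] at h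
  linarith

/-- **Littlewood's theorem.** -/
theorem exists_large_zeta_oneLine {c : ℝ} (hc : c < Real.exp eulerMascheroniConstant) :
    ∀ᶠ T : ℝ in atTop, ∃ t ∈ Set.Icc T (2 * T),
      c * log (log T) ≤ ‖riemannZeta (1 + t * Complex.I)‖ := by
  wlog hc0 : 0 ≤ c generalizing c
  · filter_upwards [this (Real.exp_pos _) le_rfl,
      (Real.tendsto_log_atTop.comp Real.tendsto_log_atTop).eventually_ge_atTop 0] with T hT hl
    obtain ⟨t, ht, h⟩ := hT
    refine ⟨t, ht, le_trans ?_ h⟩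
    rw [zero_mul]
    exact mul_nonpos_of_nonpos_of_nonneg (not_le.1 hc0).le hl
  obtain ⟨a, hca, hae⟩ := exists_between hc
  filter_upwards [Real.tendsto_log_atTop.eventually (eventually_parameters hae),
    Real.tendsto_log_atTop.eventually_ge_atTop 96,
    (Real.tendsto_log_atTop.comp Real.tendsto_log_atTop).eventually_ge_atTop (16 / (a - c)),
    eventually_ge_atTop (max 3 (2 * c / (a - c)))] with T hpar hL hl' hT'
  rw [max_le_iff, div_le_iff₀ (sub_pos.2 hca)] at hT'
  obtain ⟨hl, hXle, hPle⟩ := hpar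
  simp only [Function.comp_apply] at hl'
  rw [div_le_iff₀ (sub_pos.2 hca)] at hl'
  obtain ⟨L, hLd⟩ : ∃ L, L = log T := ⟨_, rfl⟩
  rw [← hLd] at hl hl' hXle hPle hL ⊢
  obtain ⟨l, hld⟩ : ∃ l, l = log L := ⟨_, rfl⟩
  rw [← hld] at hl hl' hXle hPle ⊢
  obtain ⟨X, hXd⟩ : ∃ X, X = ⌊L / l ^ 3⌋₊ := ⟨_, rfl⟩
  rw [← hXd] at hXle hPle
  obtain ⟨b, hbd⟩ : ∃ b : ℕ, b = ⌈l ^ 2⌉₊ := ⟨_, rfl⟩
  obtain ⟨D, hDd⟩ : ∃ D, D = primorial X ^ b := ⟨_, rfl⟩
  have hT0 : 0 < T := by linarith
  have hb1 : l ^ 2 ≤ b := hbd ▸ Nat.le_ceil _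
  have hb2 : (b : ℝ) ≤ 2 * l ^ 2 := by
    have := Nat.ceil_lt_add_one (show 0 ≤ l ^ 2 by positivity)
    rw [← hbd] at this
    nlinarith
  have hD0 : D ≠ 0 := hDd ▸ pow_ne_zero b (primorial_ne_zero X)
  -- the length
  have hlogD : log D ≤ L / 2 := by
    rw [hDd, Nat.cast_pow, Real.log_pow]
    have h4 : log (primorial X : ℝ) ≤ X * log 4 := by
      rw [← Real.log_pow]
      exact Real.log_le_log (Nat.cast_pos.2 (primorial_pos X))
        (by exact_mod_cast primorial_le_four_pow X)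
    refine (mul_le_mul_of_nonneg_left h4 (Nat.cast_nonneg b)).trans ?_
    have h5 : log 4 ≤ 2 := by
      rw [show (4 : ℝ) = 2 * 2 by norm_num, Real.log_mul two_ne_zero two_ne_zero]
      linarith [Real.log_two_lt_d9]
    refine (mul_le_mul hb2 (mul_le_mul hXle h5 (Real.log_nonneg (by norm_num)) (by positivity))
      (by positivity) (by positivity)).trans (le_of_eq_of_le (show _ = 4 * L / l by
        field_simp; ring) ?_)
    rw [div_le_div_iff₀ (by linarith) two_pos]
    nlinarith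
  have hDT : (D : ℝ) ≤ √T := by
    rw [Real.sqrt_eq_rpow, Real.rpow_def_of_pos hT0, ← Real.log_le_iff_le_exp
      (Nat.cast_pos.2 (Nat.pos_of_ne_zero hD0)), ← hLd]
    linarith
  -- the ratio
  obtain ⟨P, hPd⟩ : ∃ P, P = ∏ p ∈ primesUpTo X, (1 - (p : ℝ)⁻¹) := ⟨_, rfl⟩
  have hP0 : 0 < P := hPd ▸ prod_pos fun p hp =>
    sub_pos.2 (inv_lt_one_of_one_lt₀ (Nat.one_lt_cast.2 (mem_primesUpTo.1 hp).1.one_lt))
  rw [← hPd] at hPle
  have hE : 0 < (#D.divisors : ℝ) :=
    Nat.cast_pos.2 (card_pos.2 (Nat.nonempty_divisors.2 hD0))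
  have hratio : a * l * (#D.divisors : ℝ) ≤
      diagSum (fun k => 1 / (k : ℝ)) (divInd D) D := by
    refine le_trans ?_ (sum_sigmaOverId_le_diagSum hD0)
    refine le_of_mul_le_mul_left ?_ hP0
    have h1 := primorial_pow_mean_ge X (b := b) fun hb0 => by
      rw [hb0, Nat.cast_zero] at hb1; nlinarith
    rw [← hDd, ← hPd] at h1
    refine le_trans ?_ h1
    rw [← mul_assoc]
    refine mul_le_mul_of_nonneg_right (le_trans (le_of_eq (by ring)) (hPle.trans ?_)) hE.le
    have hS : ∑ p ∈ primesUpTo X, (p : ℝ)⁻¹ ≤ 1 + l := by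
      refine (sum_primes_inv_le X).trans ?_
      rcases Nat.eq_zero_or_pos X with rfl | hX
      · simp only [Nat.cast_zero, Real.log_zero]; linarith
      · rw [hld]
        refine add_le_add le_rfl (Real.log_le_log (Nat.cast_pos.2 hX) (hXle.trans ?_))
        exact div_le_self (by linarith) (one_le_pow₀ (by linarith))
    have h2 : 2 / ((b : ℝ) + 1) * ∑ p ∈ primesUpTo X, (p : ℝ)⁻¹ ≤ 4 / l := by
      refine (mul_le_mul_of_nonneg_left hS (by positivity)).trans ?_
      rw [div_mul_eq_mul_div, div_le_div_iff₀ (by positivity) (by linarith)]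
      nlinarith
    linarith
  -- the resonance inequality
  obtain ⟨t, ht, hmax⟩ := isCompact_Icc.exists_isMaxOn
    (Set.nonempty_Icc.2 (show T ≤ 2 * T by linarith))
    (continuous_zeta_oneLine hT0).norm
  refine ⟨t, ht, ?_⟩
  obtain ⟨Z, hZd⟩ : ∃ Z, Z = ‖riemannZeta (1 + t * Complex.I)‖ := ⟨_, rfl⟩
  have hZ0 : 0 ≤ Z := hZd ▸ norm_nonneg _
  rw [← hZd]
  obtain ⟨e, he⟩ : ∃ e, e = Real.exp (-L ^ 2 / 8) := ⟨_, rfl⟩
  have he0 : 0 < e := he ▸ Real.exp_pos _
  have hsq : √T ≤ T := Real.sqrt_le_iff.2 ⟨hT0.le, by nlinarith⟩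
  have hlogT : L ≤ √T := by
    rw [Real.sqrt_eq_rpow, Real.rpow_def_of_pos hT0, ← hLd]
    have := Real.quadratic_le_exp_of_nonneg (show 0 ≤ L * (1 / 2) by positivity)
    nlinarith
  have hδ : Real.exp (-(T / log T / (2 * ((D : ℝ) + 1))) ^ 2) ≤ e := by
    rw [he, Real.exp_le_exp, ← hLd]
    have hD1 : (1 : ℝ) ≤ D := Nat.one_le_cast.2 (Nat.pos_of_ne_zero hD0)
    have h1 : L / 2 ≤ T / L / (2 * ((D : ℝ) + 1)) := by
      rw [div_div, div_le_div_iff₀ two_pos (by positivity)]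
      have h3 : L * L ≤ √T / 2 := by
        rw [Real.sqrt_eq_rpow, Real.rpow_def_of_pos hT0, ← hLd]
        have h4 := Real.pow_div_factorial_le_exp (L * (1 / 2)) (by positivity) 3
        norm_num [Nat.factorial] at h4 ⊢
        nlinarith [mul_nonneg (mul_self_nonneg L) (show 0 ≤ L - 96 by linarith)]
      nlinarith [Real.mul_self_sqrt hT0.le, mul_le_mul h3 hDT (Nat.cast_nonneg D) (by positivity)]
    nlinarith [pow_le_pow_left₀ (by positivity) h1 2, sq_nonneg L]
  have hG : ∑ k ∈ Icc 1 ⌊2 * T⌋₊, 1 / (k : ℝ) ≤ T := by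
    refine le_trans (le_of_eq_of_le ?_ (harmonic_le_one_add_log ⌊2 * T⌋₊)) ?_
    · rw [harmonic_eq_sum_Icc]
      push_cast
      simp only [one_div]
    · have hfl : (0 : ℝ) < (⌊2 * T⌋₊ : ℕ) :=
        Nat.cast_pos.2 (Nat.floor_pos.2 (by linarith))
      have := (Real.log_le_sub_one_of_pos hfl)
      have h2 := Real.log_le_log hfl (Nat.floor_le (show 0 ≤ 2 * T by linarith))
      rw [Real.log_mul two_ne_zero hT0.ne', ← hLd] at h2
      have hquad := Real.quadratic_le_exp_of_nonneg (show 0 ≤ L by linarith)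
      rw [hLd, Real.exp_log hT0, ← hLd] at hquad
      nlinarith [Real.log_two_lt_d9]
  have hT2e : T ^ 2 * e ≤ 1 := by
    rw [sq, ← Real.exp_log hT0, he, ← hLd, ← Real.exp_add, ← Real.exp_add, Real.exp_le_one_iff]
    nlinarith
  have hmain := diagSum_le (divInd D) D (T := T) (by linarith)
    (M := ⌊2 * T⌋₊) (Nat.le_floor (by linarith)) (c := fun k => 1 / (k : ℝ))
    (fun k => by positivity) (V := Z + 3) (by linarith) (fun u hu => (norm_waveSum_one_sub_le
      (by linarith) hu).trans (add_le_add (hZd ▸ hmax hu) le_rfl)) hδ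
  rw [energy_divInd hD0, ← hLd, ← he] at hmain
  have hfin : a * l ≤ (Z + 3) * (1 + e * D) + T * D * (e + 2 * e) := by
    refine le_of_mul_le_mul_right (hratio.trans (hmain.trans ?_)) hE
    exact mul_le_mul_of_nonneg_right (add_le_add le_rfl (mul_le_mul_of_nonneg_right
      (mul_le_mul_of_nonneg_right hG (Nat.cast_nonneg D)) (by positivity))) hE.le
  have hTDe : T * D * e ≤ 1 := by
    refine le_trans ?_ hT2e
    rw [sq]
    exact mul_le_mul_of_nonneg_right (mul_le_mul_of_nonneg_left (hDT.trans hsq) hT0.le) he0.le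
  have hDe : (D : ℝ) * e ≤ 1 / T := by
    rw [le_div_iff₀ hT0]
    linarith
  by_contra h
  rw [not_le] at h
  have h5 : (Z + 3) * (1 + e * D) ≤ Z + 3 + (c * l + 3) * (1 / T) := by
    nlinarith [mul_le_mul (show Z + 3 ≤ c * l + 3 by linarith) hDe (by positivity)
      (by positivity)]
  have h6 : (c * l + 3) * (1 / T) ≤ (a - c) / 2 * l + 1 := by
    rw [mul_one_div, div_le_iff₀ hT0]
    nlinarith [mul_le_mul_of_nonneg_right hT'.2 (show 0 ≤ l by linarith)]
  linarith

/-- The same for `t → ∞`. -/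
theorem frequently_large_zeta_oneLine {c : ℝ} (hc : c < Real.exp eulerMascheroniConstant) :
    ∃ᶠ t : ℝ in atTop, c * log (log t) ≤ ‖riemannZeta (1 + t * Complex.I)‖ := by
  obtain ⟨d, hd⟩ : ∃ d, d = max c 0 := ⟨_, rfl⟩
  have hd0 : 0 ≤ d := hd ▸ le_max_right _ _
  obtain ⟨c', hdc', hc'⟩ := exists_between
    (show d < Real.exp eulerMascheroniConstant from hd ▸ max_lt hc (Real.exp_pos _))
  refine frequently_atTop.2 fun B => ?_
  obtain ⟨T, hT, hB, hl, hT3⟩ := ((exists_large_zeta_oneLine hc').and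
    ((eventually_ge_atTop B).and (((Real.tendsto_log_atTop.comp
      Real.tendsto_log_atTop).eventually_ge_atTop (max 1 (d / (c' - d)))).and
        (eventually_ge_atTop (3 : ℝ))))).exists
  obtain ⟨t, ht, hle⟩ := hT
  refine ⟨t, hB.trans ht.1, le_trans ?_ hle⟩
  simp only [Function.comp_apply, max_le_iff, div_le_iff₀ (sub_pos.2 hdc')] at hl
  have hlogT : 1 ≤ log T := by
    rw [Real.le_log_iff_exp_le (by linarith)]
    linarith [Real.exp_one_lt_three]
  have h1 : log T ≤ log t := Real.log_le_log (by linarith) ht.1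
  have h2 : log (log t) ≤ log (log T) + 1 := by
    refine (Real.log_le_log (show 0 < log t by linarith)
      ((Real.log_le_log (by linarith [ht.1]) ht.2).trans ?_)).trans
      (le_of_eq (show log (Real.exp 1 * log T) = log (log T) + 1 by
        rw [Real.log_mul (Real.exp_pos 1).ne' (by linarith), Real.log_exp]; ring))
    rw [Real.log_mul two_ne_zero (by linarith)]
    nlinarith [Real.add_one_le_exp 1, Real.log_two_lt_d9]
  refine (mul_le_mul_of_nonneg_right (hd ▸ le_max_left c 0)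
    (Real.log_nonneg (hlogT.trans h1))).trans ?_
  nlinarith [mul_le_mul_of_nonneg_left h2 hd0]

end FA.Resonance
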