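import Fermat.Agent.ErdosKac.Mertens

/-!
# `∑ 1 / (p log p)` over `A < p ≤ A ^ μ`

By Mertens' first theorem over a geometric division of the exponents it is `(1 + o (1)) / log A`
as soon as `μ` is large.
-/

set_option autoImplicit false

noncomputable section

namespace FA.Resonance

open Finset Filter
open FA.ErdosKac (primesUpTo mem_primesUpTo exists_abs_sum_log_div_sub_le)
open scoped Topology

/-- The primes `p` with `exp a < p ≤ exp b`. -/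
def primeBlock (a b : ℝ) : Finset ℕ :=
  primesUpTo ⌊Real.exp b⌋₊ \ primesUpTo ⌊Real.exp a⌋₊

theorem mem_primeBlock {a b : ℝ} {p : ℕ} :
    p ∈ primeBlock a b ↔ p.Prime ∧ a < Real.log p ∧ Real.log p ≤ b := by
  simp only [primeBlock, Finset.mem_sdiff, mem_primesUpTo, not_and, not_le]
  refine ⟨fun ⟨⟨hp, hb⟩, ha⟩ => ⟨hp, ?_, ?_⟩, fun ⟨hp, ha, hb⟩ => ⟨⟨hp, ?_⟩, fun _ => ?_⟩⟩
  · exact (Real.lt_log_iff_exp_lt (Nat.cast_pos.2 hp.pos)).2
      ((Nat.floor_lt (Real.exp_pos a).le).1 (ha hp))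
  · exact (Real.log_le_iff_le_exp (Nat.cast_pos.2 hp.pos)).2
      ((Nat.le_floor_iff (Real.exp_pos b).le).1 hb)
  · exact (Nat.le_floor_iff (Real.exp_pos b).le).2
      ((Real.log_le_iff_le_exp (Nat.cast_pos.2 hp.pos)).1 hb)
  · exact (Nat.floor_lt (Real.exp_pos a).le).2
      ((Real.lt_log_iff_exp_lt (Nat.cast_pos.2 hp.pos)).1 ha)

theorem exists_block_bound : ∃ K : ℝ, 0 ≤ K ∧ ∀ a b : ℝ, 0 ≤ a → a ≤ b →
    |∑ p ∈ primeBlock a b, Real.log p / p - (b - a)| ≤ K := by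
  obtain ⟨C, hC⟩ := exists_abs_sum_log_div_sub_le
  have hC0 : 0 ≤ C := (abs_nonneg _).trans (hC 1 le_rfl)
  have hfl : ∀ x : ℝ, 0 ≤ x → 1 ≤ ⌊Real.exp x⌋₊ ∧ |Real.log ⌊Real.exp x⌋₊ - x| ≤ Real.log 2 := by
    intro x hx
    have h1 : 1 ≤ ⌊Real.exp x⌋₊ := Nat.le_floor (by simpa using Real.one_le_exp hx)
    have h0 : (0 : ℝ) < ⌊Real.exp x⌋₊ := Nat.cast_pos.2 h1
    refine ⟨h1, abs_le.2 ⟨?_, ?_⟩⟩
    · have h2 : Real.exp x ≤ 2 * ⌊Real.exp x⌋₊ := by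
        have : (1 : ℝ) ≤ ⌊Real.exp x⌋₊ := Nat.one_le_cast.2 h1
        linarith [Nat.lt_floor_add_one (Real.exp x)]
      have := Real.log_le_log (Real.exp_pos x) h2
      rw [Real.log_exp, Real.log_mul two_ne_zero h0.ne'] at this
      linarith
    · have := Real.log_le_log h0 (Nat.floor_le (Real.exp_pos x).le)
      rw [Real.log_exp] at this
      linarith [Real.log_nonneg one_le_two]
  refine ⟨2 * C + 2 * Real.log 2, by positivity, fun a b ha hab => ?_⟩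
  obtain ⟨ha1, ha2⟩ := hfl a ha
  obtain ⟨hb1, hb2⟩ := hfl b (ha.trans hab)
  have hsub : primesUpTo ⌊Real.exp a⌋₊ ⊆ primesUpTo ⌊Real.exp b⌋₊ := fun p hp =>
    mem_primesUpTo.2 ⟨(mem_primesUpTo.1 hp).1, (mem_primesUpTo.1 hp).2.trans
      (Nat.floor_le_floor (Real.exp_le_exp.2 hab))⟩
  rw [primeBlock, sum_sdiff_eq_sub hsub]
  have h1 := abs_le.1 (hC _ ha1)
  have h2 := abs_le.1 (hC _ hb1)
  rw [abs_le] at ha2 hb2 ⊢
  constructor <;> linarith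

theorem sum_block_bounds {a b K : ℝ} (ha : 0 < a) (hab : a ≤ b)
    (hK : |∑ p ∈ primeBlock a b, Real.log p / p - (b - a)| ≤ K) :
    (b - a - K) / b ^ 2 ≤ ∑ p ∈ primeBlock a b, 1 / ((p : ℝ) * Real.log p) ∧
      ∑ p ∈ primeBlock a b, 1 / ((p : ℝ) * Real.log p) ≤ (b - a + K) / a ^ 2 ∧
        ∑ p ∈ primeBlock a b, 1 / (p : ℝ) ≤ (b - a + K) / a := by
  obtain ⟨hlo, hhi⟩ := abs_le.1 hK
  have hp : ∀ p ∈ primeBlock a b, (0 : ℝ) < p ∧ a < Real.log p ∧ Real.log p ≤ b := fun p h =>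
    ⟨Nat.cast_pos.2 (mem_primeBlock.1 h).1.pos, (mem_primeBlock.1 h).2⟩
  refine ⟨?_, ?_, ?_⟩
  · refine (div_le_div_of_nonneg_right (show b - a - K ≤ ∑ p ∈ primeBlock a b, Real.log p / p by
      linarith) (sq_nonneg b)).trans ?_
    rw [sum_div]
    refine sum_le_sum fun p h => ?_
    obtain ⟨h0, h1, h2⟩ := hp p h
    rw [div_div, div_le_div_iff₀ (mul_pos h0 (pow_pos (ha.trans_le hab) 2))
      (mul_pos h0 (ha.trans h1)), one_mul]
    nlinarith [pow_le_pow_left₀ (ha.trans h1).le h2 2]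
  · refine le_trans ?_ (div_le_div_of_nonneg_right
      (show ∑ p ∈ primeBlock a b, Real.log p / p ≤ b - a + K by linarith) (sq_nonneg a))
    rw [sum_div]
    refine sum_le_sum fun p h => ?_
    obtain ⟨h0, h1, h2⟩ := hp p h
    rw [div_div, div_le_div_iff₀ (mul_pos h0 (ha.trans h1)) (mul_pos h0 (pow_pos ha 2)), one_mul]
    nlinarith [pow_le_pow_left₀ ha.le h1.le 2]
  · refine le_trans ?_ (div_le_div_of_nonneg_right
      (show ∑ p ∈ primeBlock a b, Real.log p / p ≤ b - a + K by linarith) ha.le)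
    rw [sum_div]
    refine sum_le_sum fun p h => ?_
    obtain ⟨h0, h1, h2⟩ := hp p h
    rw [div_div, div_le_div_iff₀ h0 (mul_pos h0 ha), one_mul, mul_comm (Real.log p)]
    exact mul_le_mul_of_nonneg_left h1.le h0.le

/-- **The sums over `A < p ≤ A ^ μ`**, `ℓ = log A`. -/
theorem exists_primeBlock_sums {δ : ℝ} (hδ : 0 < δ) : ∃ μ : ℝ, 1 ≤ μ ∧ ∀ᶠ ℓ : ℝ in atTop,
    (1 - δ) / ℓ ≤ ∑ p ∈ primeBlock ℓ (μ * ℓ), 1 / ((p : ℝ) * Real.log p) ∧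
      ∑ p ∈ primeBlock ℓ (μ * ℓ), 1 / ((p : ℝ) * Real.log p) ≤ (1 + δ) / ℓ ∧
        ∑ p ∈ primeBlock ℓ (μ * ℓ), 1 / (p : ℝ) ≤ μ := by
  obtain ⟨K, hK0, hK⟩ := exists_block_bound
  obtain ⟨w, hw⟩ : ∃ w, w = 1 + δ / 4 := ⟨_, rfl⟩
  have hw1 : 1 < w := by rw [hw]; linarith
  have hw0 : 0 < w := by linarith
  obtain ⟨J, hJ⟩ := exists_pow_lt_of_lt_one (show 0 < δ / 4 by linarith) (inv_lt_one_of_one_lt₀ hw1)
  refine ⟨w ^ J, one_le_pow₀ hw1.le, ?_⟩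
  obtain ⟨E, hE⟩ : ∃ E, E = (J : ℝ) * K + K + 1 := ⟨_, rfl⟩
  have hE0 : 0 < E := hE ▸ by positivity
  filter_upwards [eventually_ge_atTop (4 * E / δ), eventually_ge_atTop K,
    eventually_ge_atTop (1 : ℝ)] with ℓ hℓE hℓK hℓ1
  rw [div_le_iff₀ hδ] at hℓE
  have hℓ : 0 < ℓ := by linarith
  have hind : ∀ j : ℕ,
      (1 - (w⁻¹) ^ j) / (w * ℓ) - j * K / ℓ ^ 2 ≤
        ∑ p ∈ primeBlock ℓ (w ^ j * ℓ), 1 / ((p : ℝ) * Real.log p) ∧
      ∑ p ∈ primeBlock ℓ (w ^ j * ℓ), 1 / ((p : ℝ) * Real.log p) ≤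
        w * (1 - (w⁻¹) ^ j) / ℓ + j * K / ℓ ^ 2 := by
    intro j
    induction j with
    | zero => simp [primeBlock]
    | succ j ih =>
      have hj1 : 1 ≤ w ^ j := one_le_pow₀ hw1.le
      have hjj : w ^ j * ℓ ≤ w ^ (j + 1) * ℓ :=
        mul_le_mul_of_nonneg_right (pow_le_pow_right₀ hw1.le (Nat.le_succ j)) hℓ.le
      have hℓj : ℓ ≤ w ^ j * ℓ := le_mul_of_one_le_left hℓ.le hj1
      obtain ⟨b1, b2, -⟩ := sum_block_bounds (hℓ.trans_le hℓj) hjj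
        (hK _ _ (hℓ.trans_le hℓj).le hjj)
      have hd : Disjoint (primeBlock ℓ (w ^ j * ℓ)) (primeBlock (w ^ j * ℓ) (w ^ (j + 1) * ℓ)) :=
        disjoint_left.2 fun p h1 h2 =>
          absurd (mem_primeBlock.1 h1).2.2 (not_le.2 (mem_primeBlock.1 h2).2.1)
      have hu : primeBlock ℓ (w ^ (j + 1) * ℓ) =
          primeBlock ℓ (w ^ j * ℓ) ∪ primeBlock (w ^ j * ℓ) (w ^ (j + 1) * ℓ) := by
        ext p
        simp only [mem_union, mem_primeBlock]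
        constructor
        · rintro ⟨hp, h1, h2⟩
          rcases le_or_gt (Real.log p) (w ^ j * ℓ) with h | h
          · exact Or.inl ⟨hp, h1, h⟩
          · exact Or.inr ⟨hp, h, h2⟩
        · rintro (⟨hp, h1, h2⟩ | ⟨hp, h1, h2⟩)
          · exact ⟨hp, h1, h2.trans hjj⟩
          · exact ⟨hp, hℓj.trans_lt h1, h2⟩
      rw [hu, sum_union hd]
      have e1 : (w ^ (j + 1) * ℓ - w ^ j * ℓ) / (w ^ (j + 1) * ℓ) ^ 2 =
          ((w⁻¹) ^ j - (w⁻¹) ^ (j + 1)) / (w * ℓ) := by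
        simp only [inv_pow]; field_simp; ring
      have e2 : (w ^ (j + 1) * ℓ - w ^ j * ℓ) / (w ^ j * ℓ) ^ 2 =
          w * ((w⁻¹) ^ j - (w⁻¹) ^ (j + 1)) / ℓ := by
        simp only [inv_pow]; field_simp; ring
      have k1 : K / (w ^ (j + 1) * ℓ) ^ 2 ≤ K / ℓ ^ 2 :=
        div_le_div_of_nonneg_left hK0 (pow_pos hℓ 2) (pow_le_pow_left₀ hℓ.le (hℓj.trans hjj) 2)
      have k2 : K / (w ^ j * ℓ) ^ 2 ≤ K / ℓ ^ 2 :=
        div_le_div_of_nonneg_left hK0 (pow_pos hℓ 2) (pow_le_pow_left₀ hℓ.le hℓj 2)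
      rw [sub_div, e1] at b1
      rw [add_div, e2] at b2
      push_cast
      constructor
      · refine le_trans (le_of_eq ?_) (add_le_add ih.1 (le_trans (sub_le_sub_left k1 _) b1))
        ring
      · refine le_trans (add_le_add ih.2 (b2.trans (add_le_add le_rfl k2))) (le_of_eq ?_)
        ring
  obtain ⟨h1, h2⟩ := hind J
  have hJ0 : 0 ≤ (w⁻¹) ^ J := by positivity
  have hK2 : (J : ℝ) * K / ℓ ^ 2 ≤ δ / 4 / ℓ := by
    rw [div_le_div_iff₀ (pow_pos hℓ 2) hℓ]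
    nlinarith [mul_nonneg hK0 hℓ.le, hE]
  refine ⟨?_, ?_, ?_⟩
  · refine le_trans ?_ ((sub_le_sub le_rfl hK2).trans h1)
    rw [← div_div, ← sub_div]
    refine div_le_div_of_nonneg_right ?_ hℓ.le
    rw [le_sub_iff_add_le, le_div_iff₀ hw0]
    nlinarith
  · refine h2.trans ((add_le_add le_rfl hK2).trans ?_)
    rw [← add_div]
    refine div_le_div_of_nonneg_right ?_ hℓ.le
    nlinarith [mul_nonneg hw0.le hJ0]
  · have hℓJ : ℓ ≤ w ^ J * ℓ := le_mul_of_one_le_left hℓ.le (one_le_pow₀ hw1.le)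
    refine (sum_block_bounds hℓ hℓJ (hK _ _ hℓ.le hℓJ)).2.2.trans ?_
    rw [div_le_iff₀ hℓ]
    linarith

end FA.Resonance
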