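import Fermat.Agent.Resonance.Euler
import Fermat.Agent.Resonance.PrimeSums

/-!
# The choice of the resonator

With `g p = L / (√p log p)` on `L² < p ≤ L^(2μ)`, `L = √(β log N log log N)`, the ratio of the two
sums is `exp ((√β + o (1)) √(log N / log log N))`; `β < 1` leaves room for Rankin's trick with
`α = (log L²)^(-2)`.
-/

set_option autoImplicit false

noncomputable section

namespace FA.Resonance

open Finset Filter Real
open scoped Topology

/-- The Euler factors of the resonator, compared. -/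
theorem euler_ratio_le {P : Finset ℕ} {u v : ℕ → ℝ} (hu : ∀ p ∈ P, 0 ≤ u p)
    (hv : ∀ p ∈ P, 0 ≤ v p) {δ : ℝ} (hδ : ∀ p ∈ P, u p + v p ≤ δ) :
    (∏ p ∈ P, (1 + v p)) * Real.exp ((1 - δ) * ∑ p ∈ P, u p) ≤ ∏ p ∈ P, (1 + u p + v p) := by
  rw [mul_sum, Real.exp_sum, ← prod_mul_distrib]
  refine prod_le_prod (fun p hp => mul_nonneg (by linarith [hv p hp]) (Real.exp_pos _).le)
    fun p hp => ?_
  have hu0 := hu p hp
  have hv0 := hv p hp
  obtain ⟨x, hx⟩ : ∃ x, x = u p / (1 + v p) := ⟨_, rfl⟩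
  have hx0 : 0 ≤ x := hx ▸ div_nonneg hu0 (by linarith)
  have hlog := Real.one_sub_inv_le_log_of_pos (show 0 < 1 + x by linarith)
  have hle : (1 - δ) * u p ≤ 1 - (1 + x)⁻¹ := by
    have e : 1 - (1 + x)⁻¹ = u p / (1 + u p + v p) := by
      rw [hx]; field_simp; ring
    rw [e, le_div_iff₀ (by linarith)]
    nlinarith [mul_nonneg hu0 (show 0 ≤ δ - (u p + v p) + δ * (u p + v p) by
      nlinarith [hδ p hp, mul_nonneg (show 0 ≤ δ by linarith [hδ p hp])
        (show 0 ≤ u p + v p by linarith)])]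
  calc (1 + v p) * Real.exp ((1 - δ) * u p) ≤ (1 + v p) * Real.exp (Real.log (1 + x)) :=
        mul_le_mul_of_nonneg_left (Real.exp_le_exp.2 (hle.trans hlog)) (by linarith)
    _ = 1 + u p + v p := by
        rw [Real.exp_log (by linarith), hx]; field_simp; ring

/-- The tail of Rankin's trick against the main term. -/
theorem rankin_ratio_le {P : Finset ℕ} {w z : ℕ → ℝ} (hw : ∀ p ∈ P, 0 ≤ w p)
    (hz : ∀ p ∈ P, 1 ≤ z p) :
    ∏ p ∈ P, (1 + z p * w p) ≤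
      (∏ p ∈ P, (1 + w p)) * Real.exp (∑ p ∈ P, (z p - 1) * w p) := by
  rw [Real.exp_sum, ← prod_mul_distrib]
  refine prod_le_prod (fun p hp => by nlinarith [hw p hp, hz p hp]) fun p hp => ?_
  have h0 := mul_nonneg (sub_nonneg.2 (hz p hp)) (hw p hp)
  refine le_trans ?_ (mul_le_mul_of_nonneg_left (Real.add_one_le_exp _) (by linarith [hw p hp]))
  nlinarith [mul_nonneg (hw p hp) h0]

theorem exists_parameters {c : ℝ} (hc : c < 1) :
    ∃ β δ : ℝ, 0 < β ∧ 0 < δ ∧ δ ≤ 1 / 2 ∧ c < (1 - δ) ^ 2 * √β / (1 + δ) ∧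
      (1 + δ) * ((1 + δ) ^ 2 * β + δ) < 1 := by
  obtain ⟨c', hc'c, hc'0, hc'1⟩ : ∃ c', c < c' ∧ 0 < c' ∧ c' < 1 :=
    ⟨(max c 0 + 1) / 2, by linarith [le_max_left c 0], by linarith [le_max_right c 0],
      by linarith [max_lt hc one_pos]⟩
  have h1 : ∀ᶠ δ : ℝ in 𝓝[>] 0, δ ≤ 1 / 2 ∧ c < (1 - δ) ^ 2 * c' / (1 + δ) ∧
      (1 + δ) * ((1 + δ) ^ 2 * c' ^ 2 + δ) < 1 := by
    refine nhdsWithin_le_nhds ((eventually_le_nhds (by norm_num)).and ?_)
    have hf : ContinuousAt (fun δ : ℝ => (1 - δ) ^ 2 * c' / (1 + δ)) 0 := by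
      fun_prop (disch := norm_num)
    have hg : ContinuousAt (fun δ : ℝ => (1 + δ) * ((1 + δ) ^ 2 * c' ^ 2 + δ)) 0 := by fun_prop
    exact (hf.tendsto.eventually_const_lt (by simpa using hc'c)).and
      (hg.tendsto.eventually_lt_const (by simpa using pow_lt_one₀ hc'0.le hc'1 two_ne_zero))
  obtain ⟨δ, ⟨hδ2, hδc, hδ1⟩, hδ0⟩ := (h1.and self_mem_nhdsWithin).exists
  exact ⟨c' ^ 2, δ, by positivity, hδ0, hδ2, by rwa [Real.sqrt_sq hc'0.le], hδ1⟩

/-- The facts about the sizes, for large `ℓ = log N`. -/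
theorem eventually_sizes {β δ μ : ℝ} (hβ : 0 < β) (hδ : 0 < δ) {R : ℝ} :
    ∀ᶠ ℓ : ℝ in atTop, 0 < ℓ ∧ 0 < Real.log ℓ ∧
      Real.log ℓ ≤ (1 + δ) * Real.log (β * ℓ * Real.log ℓ) ∧
      Real.log (β * ℓ * Real.log ℓ) ≤ (1 + δ) * Real.log ℓ ∧
      √(β * ℓ * Real.log ℓ) * μ ≤ δ * ℓ ∧
      R * Real.log (β * ℓ * Real.log ℓ) ^ 2 ≤ ℓ ∧ R ≤ Real.log (β * ℓ * Real.log ℓ) := by
  have hsmall : ∀ {η : ℝ}, 0 < η → ∀ᶠ ℓ : ℝ in atTop, Real.log (Real.log ℓ) ≤ η * Real.log ℓ :=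
    fun {η} hη => by
    filter_upwards [Real.tendsto_log_atTop.eventually
      (Real.isLittleO_log_id_atTop.bound hη), Real.tendsto_log_atTop.eventually_ge_atTop 1]
      with ℓ h h1
    rw [id_eq, Real.norm_of_nonneg (Real.log_nonneg h1),
      Real.norm_of_nonneg (show 0 ≤ Real.log ℓ by linarith)] at h
    exact h
  have hbig : ∀ {η : ℝ}, 0 < η → ∀ᶠ ℓ : ℝ in atTop, Real.log ℓ ^ 2 ≤ η * ℓ := fun {η} hη => by
    filter_upwards [(Real.isLittleO_pow_log_id_atTop (n := 2)).bound hη,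
      eventually_ge_atTop (1 : ℝ)] with ℓ h h1
    rwa [id_eq, Real.norm_of_nonneg (sq_nonneg _),
      Real.norm_of_nonneg (show 0 ≤ ℓ by linarith)] at h
  filter_upwards [Real.tendsto_log_atTop.eventually_ge_atTop (max 1 ((|Real.log β| + |R|) / δ
      + |Real.log β| + |R|)), eventually_gt_atTop (0 : ℝ), hsmall (half_pos hδ),
    Real.tendsto_log_atTop.eventually_ge_atTop (2 * |Real.log β| / δ),
    hbig (show 0 < δ ^ 2 / (β * (μ ^ 2 + 1)) by positivity),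
    hbig (show 0 < 1 / ((|R| + 1) * (1 + δ) ^ 2) by positivity)] with ℓ hl hℓ hs hlb hb1 hb2
  rw [max_le_iff] at hl
  have hl0 : 0 < Real.log ℓ := by linarith
  have hl2 : 0 ≤ Real.log (Real.log ℓ) := Real.log_nonneg hl.1
  have e : Real.log (β * ℓ * Real.log ℓ) = Real.log β + Real.log ℓ + Real.log (Real.log ℓ) := by
    rw [Real.log_mul (by positivity) hl0.ne', Real.log_mul hβ.ne' hℓ.ne']
  have hab := abs_nonneg (Real.log β)
  have hR := abs_nonneg R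
  have hab1 := neg_abs_le (Real.log β)
  have hab2 := le_abs_self (Real.log β)
  have hX : (|Real.log β| + |R|) / δ * δ = |Real.log β| + |R| := div_mul_cancel₀ _ hδ.ne'
  have hlow : Real.log ℓ ≤ (1 + δ) * Real.log (β * ℓ * Real.log ℓ) := by
    rw [e]
    nlinarith [mul_le_mul_of_nonneg_right
      (show (|Real.log β| + |R|) / δ + |Real.log β| ≤ Real.log ℓ by linarith) hδ.le]
  rw [div_le_iff₀ hδ] at hlb
  have hhigh : Real.log (β * ℓ * Real.log ℓ) ≤ (1 + δ) * Real.log ℓ := by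
    rw [e]; nlinarith
  have hlA0 : 0 ≤ Real.log (β * ℓ * Real.log ℓ) := by nlinarith
  refine ⟨hℓ, hl0, hlow, hhigh, ?_, ?_, ?_⟩
  · refine (mul_le_mul_of_nonneg_left (le_abs_self μ) (Real.sqrt_nonneg _)).trans ?_
    rw [← Real.sqrt_sq_eq_abs, ← Real.sqrt_mul (by positivity), Real.sqrt_le_iff]
    refine ⟨by positivity, ?_⟩
    rw [div_mul_eq_mul_div, le_div_iff₀ (by positivity)] at hb1
    nlinarith [mul_le_mul_of_nonneg_left hb1 hℓ.le, mul_le_mul_of_nonneg_left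
      (show Real.log ℓ ≤ Real.log ℓ ^ 2 by nlinarith)
      (show 0 ≤ β * ℓ * (μ ^ 2 + 1) by positivity)]
  · rw [div_mul_eq_mul_div, one_mul, le_div_iff₀ (by positivity)] at hb2
    calc R * Real.log (β * ℓ * Real.log ℓ) ^ 2
        ≤ (|R| + 1) * ((1 + δ) * Real.log ℓ) ^ 2 :=
          mul_le_mul (by linarith [le_abs_self R]) (pow_le_pow_left₀ hlA0 hhigh 2) (sq_nonneg _)
            (by positivity)
      _ ≤ ℓ := by nlinarith
  · rw [e]
    nlinarith [le_abs_self R, show 0 ≤ (|Real.log β| + |R|) / δ by positivity]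

/-- **The optimal resonator**, up to `c < 1`, avoiding `O (log N)` given primes. -/
theorem eventually_exists_resonator_avoiding {c : ℝ} (hc : c < 1) (C : ℝ) :
    ∀ᶠ N : ℕ in atTop, ∀ S : Finset ℕ, (#S : ℝ) ≤ C * Real.log N →
      ∃ r : ℕ → ℝ, (∀ n, 0 ≤ r n) ∧ (∀ n, r n ≠ 0 → n ≠ 0 ∧ Disjoint n.primeFactors S) ∧
        0 < energy r N ∧
          Real.exp (c * √(Real.log N / Real.log (Real.log N))) * energy r N ≤
            2 * mainSum r N := by
  classical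
  obtain ⟨β, δ, hβ, hδ, hδ2, hcδ, hβδ⟩ := exists_parameters hc
  obtain ⟨μ, hμ, hblock⟩ := exists_primeBlock_sums (half_pos hδ)
  obtain ⟨β', hβ'⟩ : ∃ β', β' = (1 + δ) * ((1 + δ) ^ 2 * β + δ) := ⟨_, rfl⟩
  have hβ'1 : 0 < 1 - β' := by rw [hβ']; linarith
  obtain ⟨A₀, hA₀⟩ := eventually_atTop.1 hblock
  obtain ⟨R, hR⟩ : ∃ R, R = max (max (max A₀ (4 * C / (δ * β))) (1 / (1 - β')))
      (4 * μ / δ + 4 / δ + 4) := ⟨_, rfl⟩
  have hlog : Tendsto (fun N : ℕ => Real.log N) atTop atTop :=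
    Real.tendsto_log_atTop.comp tendsto_natCast_atTop_atTop
  filter_upwards [hlog.eventually (eventually_sizes (μ := μ) (R := R) hβ hδ),
    eventually_ge_atTop 1] with N hN hN1 S hS
  obtain ⟨hℓ, hl, hlA, hAl, hLμ, hRA, hRl⟩ := hN
  obtain ⟨ℓ, hℓd⟩ : ∃ ℓ, ℓ = Real.log N := ⟨_, rfl⟩
  rw [← hℓd] at hℓ hl hlA hAl hLμ hRA hRl hS ⊢
  obtain ⟨l, hld⟩ : ∃ l, l = Real.log (β * ℓ * Real.log ℓ) := ⟨_, rfl⟩
  rw [← hld] at hlA hAl hRA hRl
  obtain ⟨L, hL⟩ : ∃ L, L = √(β * ℓ * Real.log ℓ) := ⟨_, rfl⟩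
  rw [← hL] at hLμ
  have hR1 : A₀ ≤ l :=
    le_trans (hR ▸ ((le_max_left _ _).trans (le_max_left _ _)).trans (le_max_left _ _)) hRl
  have hR4 : 4 * C / (δ * β) ≤ l :=
    le_trans (hR ▸ ((le_max_right _ _).trans (le_max_left _ _)).trans (le_max_left _ _)) hRl
  have hR2 : 1 / (1 - β') ≤ R := hR ▸ (le_max_right _ _).trans (le_max_left _ _)
  have hR3 : 4 * μ / δ + 4 / δ + 4 ≤ l := le_trans (hR ▸ le_max_right _ _) hRl
  have h4δ : 0 < 4 / δ := by positivity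
  have h4μ : 0 < 4 * μ / δ := by positivity
  have hl0 : 0 < l := by linarith
  have hL0 : 0 < L := hL ▸ Real.sqrt_pos.2 (by positivity)
  have hL2 : L ^ 2 = β * ℓ * Real.log ℓ := hL ▸ Real.sq_sqrt (by positivity)
  have hLexp : L ^ 2 = Real.exp l := by rw [hL2, hld, Real.exp_log (by positivity)]
  obtain ⟨B, hB⟩ : ∃ B, B = primeBlock l (μ * l) := ⟨_, rfl⟩
  obtain ⟨P, hPd⟩ : ∃ P, P = B \ S := ⟨_, rfl⟩
  have hBlog : ∀ p ∈ B, p.Prime ∧ l < Real.log p ∧ Real.log p ≤ μ * l := fun p hp =>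
    mem_primeBlock.1 (hB ▸ hp)
  have hP : ∀ p ∈ P, p.Prime := fun p hp => (hBlog p (Finset.mem_sdiff.1 (hPd ▸ hp)).1).1
  have hPlog : ∀ p ∈ P, l < Real.log p ∧ Real.log p ≤ μ * l := fun p hp =>
    (hBlog p (Finset.mem_sdiff.1 (hPd ▸ hp)).1).2
  obtain ⟨hS1, hS2, hS3⟩ : (1 - δ) / l ≤ ∑ p ∈ P, 1 / ((p : ℝ) * Real.log p) ∧
      ∑ p ∈ P, 1 / ((p : ℝ) * Real.log p) ≤ (1 + δ) / l ∧ ∑ p ∈ P, 1 / (p : ℝ) ≤ μ := by
    obtain ⟨h1, h2, h3⟩ := hA₀ l hR1
    rw [← hB] at h1 h2 h3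
    have hsub : P ⊆ B := hPd ▸ sdiff_subset
    refine ⟨?_, ?_, (sum_le_sum_of_subset_of_nonneg hsub fun p _ _ => by positivity).trans h3⟩
    · have hdrop : ∑ p ∈ B ∩ S, 1 / ((p : ℝ) * Real.log p) ≤ δ / 2 / l := by
        refine (sum_le_card_nsmul _ _ (1 / (L ^ 2 * l)) fun p hp => ?_).trans ?_
        · obtain ⟨hpp, hlp, -⟩ := hBlog p (Finset.mem_inter.1 hp).1
          have hpL : L ^ 2 < (p : ℝ) := hLexp ▸
            (Real.lt_log_iff_exp_lt (Nat.cast_pos.2 hpp.pos)).1 hlp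
          exact one_div_le_one_div_of_le (by positivity)
            (mul_le_mul hpL.le hlp.le hl0.le (Nat.cast_nonneg p))
        · have hcard : ((B ∩ S).card : ℝ) ≤ C * ℓ :=
            (Nat.cast_le.2 (card_le_card inter_subset_right)).trans hS
          rw [nsmul_eq_mul, hL2, mul_one_div, div_le_div_iff₀ (by positivity) hl0]
          rw [div_le_iff₀ (by positivity)] at hR4
          have hC : C ≤ δ / 2 * β * Real.log ℓ := by
            nlinarith [mul_le_mul_of_nonneg_right (show l ≤ 2 * Real.log ℓ by nlinarith)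
              (mul_pos hδ hβ).le]
          nlinarith [mul_le_mul_of_nonneg_right hcard hl0.le,
            mul_le_mul_of_nonneg_right hC (mul_pos hℓ hl0).le]
      rw [← sum_inter_add_sum_sdiff B S, ← hPd] at h1
      refine le_trans (le_of_eq (show (1 - δ) / l = (1 - δ / 2) / l - δ / 2 / l by ring)) ?_
      linarith
    · refine ((sum_le_sum_of_subset_of_nonneg hsub fun p _ _ => div_nonneg zero_le_one
        (mul_nonneg (Nat.cast_nonneg p) (Real.log_natCast_nonneg p))).trans h2).trans ?_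
      exact div_le_div_of_nonneg_right (by linarith) hl0.le
  obtain ⟨g, hg⟩ : ∃ g : ℕ → ℝ, g = fun p => if p.Prime then L / (√(p : ℝ) * Real.log p) else 0 :=
    ⟨_, rfl⟩
  have hg0 : ∀ p, 0 ≤ g p := fun p => by
    rw [hg]; simp only
    split_ifs
    · exact div_nonneg hL0.le (mul_nonneg (Real.sqrt_nonneg _) (Real.log_natCast_nonneg p))
    · exact le_rfl
  have hp0 : ∀ p ∈ P, (0 : ℝ) < p ∧ 0 < Real.log p := fun p hp =>
    ⟨Nat.cast_pos.2 (hP p hp).pos, hl0.trans (hPlog p hp).1⟩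
  have hu : ∀ p ∈ P, g p / √(p : ℝ) = L * (1 / ((p : ℝ) * Real.log p)) := fun p hp => by
    rw [hg]; simp only
    rw [if_pos (hP p hp), div_div, mul_comm (√(p : ℝ)) (Real.log p), mul_assoc,
      Real.mul_self_sqrt (Nat.cast_nonneg p), mul_comm (Real.log p), mul_one_div]
  have hv : ∀ p ∈ P, g p ^ 2 = L ^ 2 * (1 / ((p : ℝ) * Real.log p ^ 2)) := fun p hp => by
    rw [hg]; simp only
    rw [if_pos (hP p hp), div_pow, mul_pow, Real.sq_sqrt (Nat.cast_nonneg p), mul_one_div]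
  have hbig : ∀ p ∈ P, L ^ 2 < (p : ℝ) := fun p hp => by
    rw [hLexp]
    exact (Real.lt_log_iff_exp_lt (hp0 p hp).1).1 (hPlog p hp).1
  have hL1 : 4 / δ ≤ L := by
    have h1 := Real.add_one_le_exp (l / 2)
    have h2 : Real.exp (l / 2) = L := by
      rw [show l / 2 = l * (1 / 2) by ring, Real.exp_mul, ← hLexp, ← Real.sqrt_eq_rpow,
        Real.sqrt_sq hL0.le]
    have hl4 : 4 ≤ l := by linarith
    have h3 := Real.quadratic_le_exp_of_nonneg (show 0 ≤ l / 2 by linarith)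
    rw [h2] at h3
    nlinarith
  have hsum_small : ∀ p ∈ P, g p / √(p : ℝ) + g p ^ 2 ≤ δ := by
    intro p hp
    obtain ⟨h0, h1⟩ := hp0 p hp
    have hpl := (hPlog p hp).1
    rw [hu p hp, hv p hp]
    have e1 : L * (1 / ((p : ℝ) * Real.log p)) ≤ δ / 4 := by
      rw [mul_one_div, div_le_iff₀ (mul_pos h0 h1)]
      rw [div_le_iff₀ hδ] at hL1
      nlinarith [mul_le_mul_of_nonneg_left (hbig p hp).le hδ.le,
        mul_le_mul_of_nonneg_left (show 1 ≤ Real.log p by linarith) (mul_pos hδ h0).le,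
        mul_le_mul_of_nonneg_left hL1 hL0.le]
    have e2 : L ^ 2 * (1 / ((p : ℝ) * Real.log p ^ 2)) ≤ δ / 4 := by
      rw [mul_one_div, div_le_iff₀ (mul_pos h0 (pow_pos h1 2))]
      have h4 : 4 ≤ δ * Real.log p := by
        have : 4 / δ ≤ Real.log p := by linarith
        rwa [div_le_iff₀ hδ, mul_comm] at this
      have h5 : 1 ≤ Real.log p := by linarith
      have h6 : 4 * 1 ≤ δ * Real.log p * Real.log p :=
        mul_le_mul h4 h5 zero_le_one (by positivity)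
      nlinarith [mul_le_mul_of_nonneg_left h6 h0.le, hbig p hp]
    linarith
  -- Rankin
  obtain ⟨α, hα⟩ : ∃ α, α = 1 / l ^ 2 := ⟨_, rfl⟩
  have hα0 : 0 < α := hα ▸ by positivity
  have hN0 : (0 : ℝ) < N := Nat.cast_pos.2 hN1
  have hz : ∀ p ∈ P, 1 ≤ (p : ℝ) ^ α ∧ (p : ℝ) ^ α - 1 ≤ (1 + δ) * (α * Real.log p) := by
    intro p hp
    obtain ⟨h0, h1⟩ := hp0 p hp
    refine ⟨Real.one_le_rpow (by exact_mod_cast (hP p hp).one_le) hα0.le, ?_⟩
    rw [Real.rpow_def_of_pos h0, mul_comm (Real.log p)]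
    obtain ⟨x, hx⟩ : ∃ x, x = α * Real.log p := ⟨_, rfl⟩
    rw [← hx]
    have hx0 : 0 ≤ x := hx ▸ (mul_pos hα0 h1).le
    have hxμ : x ≤ δ / 4 := by
      rw [hx, hα, div_mul_eq_mul_div, one_mul, div_le_iff₀ (by positivity)]
      have : 4 * μ / δ ≤ l := by linarith
      rw [div_le_iff₀ hδ] at this
      nlinarith [(hPlog p hp).2]
    have h2 := Real.abs_exp_sub_one_sub_id_le (show |x| ≤ 1 by
      rw [abs_of_nonneg hx0]; linarith)
    nlinarith [(abs_le.1 h2).2]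
  have hsumle : ∑ p ∈ P, ((p : ℝ) ^ α - 1) * (g p / √(p : ℝ) + g p ^ 2) ≤ β' * (α * ℓ) := by
    refine (sum_le_sum (g := fun p : ℕ => (1 + δ) * α *
      (L * (1 / (p : ℝ)) + L ^ 2 * (1 / ((p : ℝ) * Real.log p)))) fun p hp => ?_).trans ?_
    · obtain ⟨h0, h1⟩ := hp0 p hp
      rw [hu p hp, hv p hp]
      refine (mul_le_mul_of_nonneg_right (hz p hp).2 ?_).trans (le_of_eq ?_)
      · positivity
      · field_simp
    · rw [← mul_sum, sum_add_distrib, ← mul_sum, ← mul_sum, hβ', mul_assoc (1 + δ) α,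
        mul_assoc (1 + δ) ((1 + δ) ^ 2 * β + δ)]
      refine mul_le_mul_of_nonneg_left ?_ (by linarith)
      rw [mul_comm α ℓ, mul_comm α, ← mul_assoc]
      refine mul_le_mul_of_nonneg_right ?_ hα0.le
      have e1 : L * ∑ p ∈ P, 1 / (p : ℝ) ≤ δ * ℓ :=
        (mul_le_mul_of_nonneg_left hS3 hL0.le).trans hLμ
      have e2 : L ^ 2 * ∑ p ∈ P, 1 / ((p : ℝ) * Real.log p) ≤ (1 + δ) ^ 2 * β * ℓ := by
        refine (mul_le_mul_of_nonneg_left hS2 (sq_nonneg L)).trans ?_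
        rw [hL2, mul_div_assoc', div_le_iff₀ hl0]
        nlinarith [mul_le_mul_of_nonneg_left hlA (show 0 ≤ (1 + δ) * β * ℓ by positivity)]
      linarith
  have hhalf : Real.exp (β' * (α * ℓ)) ≤ (N : ℝ) ^ α / 2 := by
    rw [Real.rpow_def_of_pos hN0, ← hℓd, le_div_iff₀ two_pos]
    have h1 : 1 ≤ (1 - β') * (α * ℓ) := by
      rw [div_le_iff₀ hβ'1] at hR2
      rw [hα, div_mul_eq_mul_div, one_mul, mul_div_assoc', one_le_div (by positivity)]
      nlinarith [mul_le_mul_of_nonneg_left hRA hβ'1.le,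
        mul_le_mul_of_nonneg_right hR2 (sq_nonneg l)]
    refine (mul_le_mul_of_nonneg_left (show (2 : ℝ) ≤ Real.exp 1 by
      linarith [Real.add_one_le_exp (1 : ℝ)]) (Real.exp_pos _).le).trans ?_
    rw [← Real.exp_add, Real.exp_le_exp]
    nlinarith
  -- assemble
  obtain ⟨M, hM⟩ : ∃ M, M = ∏ p ∈ P, (1 + g p / √(p : ℝ) + g p ^ 2) := ⟨_, rfl⟩
  have hw : ∀ p ∈ P, 0 ≤ g p / √(p : ℝ) + g p ^ 2 := fun p _ =>
    add_nonneg (div_nonneg (hg0 p) (Real.sqrt_nonneg _)) (sq_nonneg _)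
  have hM0 : 0 ≤ M := hM ▸ prod_nonneg fun p hp => by linarith [hw p hp]
  have htail : ((N : ℝ) ^ α)⁻¹ *
      ∏ p ∈ P, (1 + (p : ℝ) ^ α * (g p / √(p : ℝ)) + (p : ℝ) ^ α * g p ^ 2) ≤ M / 2 := by
    rw [inv_mul_le_iff₀ (Real.rpow_pos_of_pos hN0 α)]
    refine le_trans (le_of_eq (prod_congr rfl fun p _ => by rw [add_assoc, ← mul_add]))
      ((rankin_ratio_le hw fun p hp => (hz p hp).1).trans ?_)
    rw [prod_congr rfl (g := fun p => 1 + g p / √(p : ℝ) + g p ^ 2) fun p _ =>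
      (add_assoc 1 _ _).symm, ← hM]
    refine (mul_le_mul_of_nonneg_left ((Real.exp_le_exp.2 hsumle).trans hhalf) hM0).trans
      (le_of_eq ?_)
    ring
  have hmain : M / 2 ≤ mainSum (coeff P g) N := by
    linarith [le_mainSum_coeff P hP hg0 hN1 hα0.le, hM]
  refine ⟨coeff P g, coeff_nonneg P hg0, fun n hn => ?_,
    energy_coeff_pos P hN1, le_trans ?_ (show M ≤ _ by linarith)⟩
  · unfold coeff at hn
    split_ifs at hn with h
    · exact ⟨h.1.ne_zero, disjoint_left.2 fun p hp hpS =>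
        (Finset.mem_sdiff.1 (hPd ▸ h.2 hp)).2 hpS⟩
    · exact absurd rfl hn
  refine (mul_le_mul_of_nonneg_left (energy_coeff_le P g N) (Real.exp_pos _).le).trans ?_
  rw [mul_comm, hM]
  refine le_trans (mul_le_mul_of_nonneg_left (Real.exp_le_exp.2 ?_)
    (prod_nonneg fun p _ => by positivity))
    (euler_ratio_le (fun p hp => div_nonneg (hg0 p) (Real.sqrt_nonneg _))
      (fun p _ => sq_nonneg (g p)) hsum_small)
  rw [sum_congr rfl hu, ← mul_sum]
  calc c * √(ℓ / Real.log ℓ) ≤ (1 - δ) ^ 2 * √β / (1 + δ) * √(ℓ / Real.log ℓ) :=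
        mul_le_mul_of_nonneg_right hcδ.le (Real.sqrt_nonneg _)
    _ ≤ (1 - δ) * (L * ((1 - δ) / l)) := by
        have hs : √(ℓ / Real.log ℓ) * √β = L / Real.log ℓ := by
          rw [hL, ← Real.sqrt_mul (by positivity),
            show ℓ / Real.log ℓ * β = β * ℓ * Real.log ℓ / Real.log ℓ ^ 2 by field_simp,
            Real.sqrt_div (by positivity), Real.sqrt_sq hl.le]
        have h1 : L / Real.log ℓ / (1 + δ) ≤ L / l := by
          rw [div_div]
          exact div_le_div_of_nonneg_left hL0.le hl0 (by linarith)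
        calc (1 - δ) ^ 2 * √β / (1 + δ) * √(ℓ / Real.log ℓ)
            = (1 - δ) ^ 2 * (L / Real.log ℓ / (1 + δ)) := by rw [← hs]; ring
          _ ≤ (1 - δ) ^ 2 * (L / l) := mul_le_mul_of_nonneg_left h1 (sq_nonneg _)
          _ = _ := by ring
    _ ≤ _ := mul_le_mul_of_nonneg_left (mul_le_mul_of_nonneg_left hS1 hL0.le) (by linarith)

/-- **The optimal resonator**, up to `c < 1`. -/
theorem eventually_exists_resonator {c : ℝ} (hc : c < 1) :
    ∀ᶠ N : ℕ in atTop, ∃ r : ℕ → ℝ, 0 < energy r N ∧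
      Real.exp (c * √(Real.log N / Real.log (Real.log N))) * energy r N ≤ 2 * mainSum r N := by
  filter_upwards [eventually_exists_resonator_avoiding hc 0] with N hN
  obtain ⟨r, -, -, hr⟩ := hN ∅ (by simp)
  exact ⟨r, hr⟩

end FA.Resonance
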