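import Mathlib.Analysis.SpecialFunctions.Gaussian.FourierTransform

/-!
# A Gaussian window against exponential sums

Against the window `exp (-((t - t₀) / H)²)` a frequency `l` counts `√π H exp (-(l H / 2)²)` in
absolute value, so only the frequency `0` survives.
-/

set_option autoImplicit false

noncomputable section

namespace FA.Resonance

open Finset Filter Complex MeasureTheory
open scoped Topology Real

/-- `exp (-((t - t₀) / H)²)`. -/
def window (t₀ H t : ℝ) : ℝ := Real.exp (-((t - t₀) / H) ^ 2)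

theorem window_pos (t₀ H t : ℝ) : 0 < window t₀ H t := Real.exp_pos _

theorem window_le_one (t₀ H t : ℝ) : window t₀ H t ≤ 1 :=
  Real.exp_le_one_iff.2 (by nlinarith [sq_nonneg ((t - t₀) / H)])

theorem continuous_window (t₀ H : ℝ) : Continuous (window t₀ H) := by
  unfold window
  fun_prop

theorem window_eq (t₀ H t : ℝ) : window t₀ H t = Real.exp (-(1 / H ^ 2) * (t - t₀) ^ 2) := by
  rw [window, div_pow]
  ring_nf

theorem integrable_window (t₀ : ℝ) {H : ℝ} (hH : 0 < H) : Integrable (window t₀ H) := by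
  simp only [funext (window_eq t₀ H)]
  exact (integrable_exp_neg_mul_sq (by positivity)).comp_sub_right t₀

theorem integral_window (t₀ : ℝ) {H : ℝ} (hH : 0 < H) :
    ∫ t, window t₀ H t = √π * H := by
  simp only [window_eq]
  rw [integral_sub_right_eq_self (fun u : ℝ => Real.exp (-(1 / H ^ 2) * u ^ 2)) t₀,
    integral_gaussian, div_div_eq_mul_div, div_one, Real.sqrt_mul Real.pi_pos.le,
    Real.sqrt_sq hH.le]

/-- `t ↦ exp (i l t)`. -/
def wave (l t : ℝ) : ℂ := cexp ((l : ℂ) * t * I)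

theorem norm_wave (l t : ℝ) : ‖wave l t‖ = 1 := by
  rw [wave, ← Complex.ofReal_mul, Complex.norm_exp_ofReal_mul_I]

theorem wave_add (a b t : ℝ) : wave (a + b) t = wave a t * wave b t := by
  rw [wave, wave, wave, ← Complex.exp_add]
  push_cast
  ring_nf

theorem conj_wave (l t : ℝ) : (starRingEnd ℂ) (wave l t) = wave (-l) t := by
  rw [wave, wave, ← Complex.exp_conj]
  congr 1
  simp

theorem continuous_wave (l : ℝ) : Continuous (wave l) := by
  unfold wave
  fun_prop

theorem integrable_window_wave (t₀ : ℝ) {H : ℝ} (hH : 0 < H) (l : ℝ) :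
    Integrable fun t => (window t₀ H t : ℂ) * wave l t :=
  Integrable.mono' (integrable_window t₀ hH)
    ((Complex.continuous_ofReal.comp (continuous_window t₀ H)).mul
      (continuous_wave l)).aestronglyMeasurable
    (Eventually.of_forall fun t => by
      rw [norm_mul, norm_wave, mul_one, Complex.norm_real,
        Real.norm_of_nonneg (window_pos t₀ H t).le])

theorem integral_window_wave (t₀ : ℝ) {H : ℝ} (hH : 0 < H) (l : ℝ) :
    ∫ t, (window t₀ H t : ℂ) * wave l t =
      ((√π * H * Real.exp (-(l * H / 2) ^ 2) : ℝ) : ℂ) * wave l t₀ := by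
  obtain ⟨b, hb⟩ : ∃ b : ℝ, b = 1 / H ^ 2 := ⟨_, rfl⟩
  have hb0 : 0 < b := hb ▸ by positivity
  have e : ∀ t : ℝ, (window t₀ H t : ℂ) * wave l t =
      wave l t₀ * (cexp (I * l * ((t - t₀ : ℝ) : ℂ)) *
        cexp (-(b : ℂ) * ((t - t₀ : ℝ) : ℂ) ^ 2)) := fun t => by
    rw [window_eq, ← hb, wave, wave, Complex.ofReal_exp, ← Complex.exp_add, ← Complex.exp_add,
      ← Complex.exp_add]
    congr 1
    push_cast
    ring
  simp only [e]
  rw [integral_const_mul, integral_sub_right_eq_self (fun u : ℝ =>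
    cexp (I * l * (u : ℂ)) * cexp (-(b : ℂ) * (u : ℂ) ^ 2)) t₀,
    fourierIntegral_gaussian (b := (b : ℂ)) (by simpa using hb0) (l : ℂ), mul_comm (wave l t₀)]
  congr 1
  rw [← Complex.ofReal_div, show (1 / 2 : ℂ) = ((1 / 2 : ℝ) : ℂ) by push_cast; rfl,
    ← Complex.ofReal_cpow (by positivity), ← Real.sqrt_eq_rpow, Complex.ofReal_mul,
    Complex.ofReal_exp]
  congr 1
  · congr 1
    rw [hb, div_div_eq_mul_div, div_one, Real.sqrt_mul Real.pi_pos.le, Real.sqrt_sq hH.le]
  · congr 1
    rw [hb]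
    push_cast
    field_simp
    ring

/-- **Only the frequency `0` survives.** -/
theorem norm_window_sum_sub_le {ι : Type*} {s D : Finset ι} (hD : D ⊆ s) (a : ι → ℂ) (l : ι → ℝ)
    (t₀ : ℝ) {H δ : ℝ} (hH : 0 < H) (hδ0 : 0 ≤ δ) (h0 : ∀ i ∈ D, l i = 0)
    (hδ : ∀ i ∈ s, i ∉ D → Real.exp (-(l i * H / 2) ^ 2) ≤ δ) :
    ‖(∫ t, (window t₀ H t : ℂ) * ∑ i ∈ s, a i * wave (l i) t) -
        ((√π * H : ℝ) : ℂ) * ∑ i ∈ D, a i‖ ≤ √π * H * δ * ∑ i ∈ s, ‖a i‖ := by
  classical
  simp only [mul_sum, mul_left_comm (window t₀ H _ : ℂ)]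
  rw [integral_finsetSum _ fun i _ => (integrable_window_wave t₀ hH (l i)).const_mul (a i),
    ← sum_sdiff hD, ← sum_sdiff (f := fun i => √π * H * δ * ‖a i‖) hD]
  simp only [integral_const_mul, integral_window_wave t₀ hH]
  rw [add_sub_assoc, ← sum_sub_distrib, sum_eq_zero (s := D) fun i hi => by
    rw [h0 i hi]; simp [wave, mul_comm], add_zero]
  refine le_add_of_le_of_nonneg (norm_sum_le_of_le _ fun i hi => ?_)
    (sum_nonneg fun i _ => by positivity)
  rw [Finset.mem_sdiff] at hi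
  rw [norm_mul, norm_mul, norm_wave, mul_one, Complex.norm_real,
    Real.norm_of_nonneg (by positivity), mul_comm ‖a i‖]
  exact mul_le_mul_of_nonneg_right (mul_le_mul_of_nonneg_left (hδ i hi.1 hi.2) (by positivity))
    (norm_nonneg _)

end FA.Resonance
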